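import Fermat.Agent.Twi.Final

/-!
# `twist_false`
-/

set_option autoImplicit false
set_option linter.unusedSectionVars false
set_option linter.style.haveILetI false

open TensorProduct ModularFormClass CuspForm ModularCurve ModularCurve.Period
open Fermat.Agent.AL Fermat.Agent.ALCoh Fermat.Agent.TW Fermat.Agent.KumG

namespace Fermat.Agent.Twi

open Fermat.Agent.GalRep Fermat.Agent.HD

noncomputable section

theorem claimF'_congr {ι : AlgebraicClosure ℚ →+* ℂ} {N₁ N₂ N₁' N₂' q p : ℕ} [NeZero N₁]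
    [NeZero N₂] [Fact p.Prime] (h : N₁ = N₂) (h' : N₁' = N₂') (H : ClaimF' ι N₁ N₁' q p) :
    ClaimF' ι N₂ N₂' q p := by
  subst h
  subst h'
  exact H

/-- **Twisting.** An eigenvector on `Γ_H(M v)` with nebentypus `ψ ^ 2`, `ψ ≠ 1` of odd order `p` and
conductor `v`, whose twisted pseudo-representation is unipotent on inertia at `v`, vanishes. -/
theorem twist_false (ι : AlgebraicClosure ℚ →+* ℂ)
    {O : Type*} [CommRing O] [IsDomain O] [IsDiscreteValuationRing O] [CharZero O]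
    {p : ℕ} [Fact p.Prime] (hp2 : p ≠ 2) (hpO : (p : O) ∈ IsLocalRing.maximalIdeal O)
    {M v : ℕ} [hv : Fact v.Prime] [NeZero (M * v)] (hvM : ¬ v ∣ M) (hvp : v ≠ p)
    {H : Subgroup (ZMod (M * v))ˣ} [Fact ((-1 : (ZMod (M * v))ˣ) ∈ H)]
    {S : Set ℕ} (hS : S.Finite) {ψ : MulChar (ZMod v) O} (hψ : ψ ≠ 1) (hψp : ψ ^ p = 1)
    {x : O ⊗[ℤ] KumG.LZ (GH (M * v) H)}
    (hdia : ∀ d : (ZMod (M * v))ˣ, (DH (M * v) H d).baseChange O x =
      ψ (ZMod.castHom (dvd_mul_left v M) (ZMod v) d) ^ 2 • x)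
    {lam : ℕ → O}
    (hT : ∀ (l : ℕ) (hl : l.Prime) (hlN : ¬ l ∣ M * v), l ∉ S →
      (TH (M * v) H hl hlN).baseChange O x = lam l • x)
    {t D : GQ → O} (hps : IsPseudoRep t D)
    (ht : ∀ n, IsLocConst (fun g => Ideal.Quotient.mk (IsLocalRing.maximalIdeal O ^ n) (t g)))
    (hD : ∀ n, IsLocConst (fun g => Ideal.Quotient.mk (IsLocalRing.maximalIdeal O ^ n) (D g)))
    (hfrob : ∀ l : ℕ, l.Prime → l ∉ S → ¬ l ∣ M * v →
      ∀ P : ValuationSubring (AlgebraicClosure ℚ),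
      P.LiesOverPrime l → ∀ τ : GQ, P.IsFrobeniusAt τ l → lam l = ψ (l : ZMod v) * t τ ∧ D τ = l)
    (hun : ∀ P : ValuationSubring (AlgebraicClosure ℚ), P.LiesOverPrime v →
      ∀ σ ∈ P.inertiaSubgroupIn ℚ, t σ = 2 ∧ D σ = 1)
    (hclaim : ∀ (M₀ q r p : ℕ) [NeZero (q ^ 2 * M₀ * r)] [Fact p.Prime], q.Prime → r.Prime →
      r % 12 = 11 → ¬ q ∣ M₀ → ¬ r ∣ q * M₀ → q ≠ p → r ≠ p →
        ClaimF' ι (q ^ 2 * M₀ * r) (q * M₀ * r) q p) : x = 0 := by
  have hp : p.Prime := Fact.out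
  have hvv : v.Prime := hv.out
  have hMv0 : M * v ≠ 0 := NeZero.ne _
  have hM0 : M ≠ 0 := left_ne_zero_of_mul hMv0
  -- the auxiliary prime
  obtain ⟨r, hrM, hr, hr11⟩ := Nat.forall_exists_prime_gt_and_eq_mod
    (q := 12) (a := 11) (by decide) (M * v * p)
  have hr12 : r % 12 = 11 := by
    have : ((r : ℕ) : ZMod 12) = ((11 : ℕ) : ZMod 12) := by rw [hr11]; rfl
    exact (ZMod.natCast_eq_natCast_iff' r 11 12).1 this
  have hrdvd : ∀ d, d ∣ M * v * p → r ≠ d := by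
    rintro d hd rfl
    have := Nat.le_of_dvd (Nat.pos_of_ne_zero (mul_ne_zero hMv0 hp.ne_zero)) hd
    omega
  have hrvM : ¬ r ∣ v * M := by
    intro hd
    have h1 : r ∣ M * v * p := by
      rw [mul_comm M v]
      exact hd.mul_right p
    exact hrdvd r h1 rfl
  have hrp : r ≠ p := hrdvd p (dvd_mul_left _ _)
  have hrv : r ≠ v := hrdvd v ((dvd_mul_left v M).mul_right p)
  haveI : NeZero (v * M * r) := ⟨mul_ne_zero (mul_ne_zero hvv.ne_zero hM0) hr.ne_zero⟩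
  haveI : NeZero (v * M * r * v) := ⟨mul_ne_zero (NeZero.ne _) hvv.ne_zero⟩
  haveI : NeZero (M * v * v) := ⟨mul_ne_zero (NeZero.ne _) hvv.ne_zero⟩
  haveI : NeZero (M * r) := ⟨mul_ne_zero hM0 hr.ne_zero⟩
  haveI : NeZero (v ^ 2 * M * r) := ⟨mul_ne_zero (mul_ne_zero (pow_ne_zero 2 hvv.ne_zero) hM0)
    hr.ne_zero⟩
  have hvMr : ¬ v ∣ M * r := by
    intro hd
    rcases hvv.dvd_mul.1 hd with h | h
    · exact hvM h
    · exact hrv ((Nat.prime_dvd_prime_iff_eq hvv hr).1 h).symm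
  have hcov : v.Coprime (M * r) := (Nat.Prime.coprime_iff_not_dvd hvv).2 hvMr
  have hN : v * M * r * v = v ^ 2 * (M * r) := by ring
  have hN' : v * M * r = v * (M * r) := by ring
  have hco : (v ^ 2).Coprime (v * M * r * v / v ^ 2) := by
    rw [hN, Nat.mul_div_cancel_left _ (pow_pos hvv.pos 2)]
    exact hcov.pow_left 2
  have hcl : ClaimF' ι (v * M * r * v) (v * M * r) v p :=
    claimF'_congr (by ring) rfl (hclaim M v r p hvv hr hr12 hvM hrvM hvp hrp)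
  -- the character
  obtain ⟨u, hu⟩ : ∃ u : (ZMod v)ˣ, ψ u ≠ 1 := by
    by_contra hcon
    push Not at hcon
    apply hψ
    exact MulChar.ext fun u => by rw [hcon u, MulChar.one_apply_coe]
  have hu2 : ψ (u : ZMod v) ^ 2 ≠ 1 := by
    intro h
    obtain ⟨k, hk⟩ := hp.odd_of_ne_two hp2
    have h1 : ψ (u : ZMod v) ^ p = 1 := by
      rw [← MulChar.pow_apply_coe, hψp, MulChar.one_apply_coe]
    rw [hk, pow_add, pow_mul, h, one_pow, one_mul, pow_one] at h1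
    exact hu h1
  have hu0 : (u : ZMod v) ≠ 0 := u.ne_zero
  have hDat := dat_of_dia hdia
  haveI : (GH (M * v) H).FiniteIndex := inferInstance
  refine eq_zero_of_xi (r := r) hψ hvM hu2 hu0 hDat ?_
  refine eq_zero_of_traces (q := v) (M := M * r) ι hp2 hpO hN hN' hcov
    (dvd_mul_right (v * M * r) v) (dvd_sq (M := M) (v := v) (r := r)) hco hcl
    (f := trL M v r) (g := trL M v r ∘ₗ wL M v r hco) (fun φ => trL_coe φ)
    (fun φ => (trL_coe _).trans (by rw [wL_coe])) hS hps ht hD (xi ψ r x)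
    (trL_xi hψ hvMr hDat) ?_ (fun l => ψ⁻¹ (l : ZMod v) * lam l) ?_ ?_ hun
  · rw [LinearMap.baseChange_comp, LinearMap.comp_apply]
    exact trL_wL_xi hco hψ hvMr hDat
  · intro l hl hlN hlS
    have hlMv : ¬ l ∣ M * v := fun h => hlN (h.trans ⟨r * v, by ring⟩)
    have hlv : ¬ l ∣ v := fun h => hlMv (h.mul_left M)
    have hunit : IsUnit (l : ZMod v) := (ZMod.isUnit_iff_coprime l v).2
      ((Nat.Prime.coprime_iff_not_dvd hl).2 hlv)
    refine TG_xi hDat hl hlMv hlN ?_ (hT l hl hlMv hlS)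
    rw [← mul_assoc, ← MulChar.mul_apply, mul_inv_cancel, MulChar.one_apply hunit, one_mul]
  · intro l hl hlS hlN P hP τ hτ
    have hlMv : ¬ l ∣ M * v := fun h => hlN (h.trans ⟨r * v, by ring⟩)
    have hlv : ¬ l ∣ v := fun h => hlMv (h.mul_left M)
    have hunit : IsUnit (l : ZMod v) := (ZMod.isUnit_iff_coprime l v).2
      ((Nat.Prime.coprime_iff_not_dvd hl).2 hlv)
    obtain ⟨h1, h2⟩ := hfrob l hl hlS hlMv P hP τ hτ
    refine ⟨?_, h2⟩
    rw [h1, ← mul_assoc, ← MulChar.mul_apply, inv_mul_cancel, MulChar.one_apply hunit, one_mul]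

/-- `twist_false` for a character of the unit group -/
theorem twist_false' (ι : AlgebraicClosure ℚ →+* ℂ)
    {O : Type*} [CommRing O] [IsDomain O] [IsDiscreteValuationRing O] [CharZero O]
    {p : ℕ} [Fact p.Prime] (hp2 : p ≠ 2) (hpO : (p : O) ∈ IsLocalRing.maximalIdeal O)
    {M v : ℕ} [hv : Fact v.Prime] [NeZero (M * v)] (hvM : ¬ v ∣ M) (hvp : v ≠ p)
    {H : Subgroup (ZMod (M * v))ˣ} [Fact ((-1 : (ZMod (M * v))ˣ) ∈ H)]
    {S : Set ℕ} (hS : S.Finite) {ψ : (ZMod v)ˣ →* Oˣ} (hψ : ψ ≠ 1) (hψp : ∀ u, ψ u ^ p = 1)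
    {x : O ⊗[ℤ] KumG.LZ (GH (M * v) H)}
    (hdia : ∀ d : (ZMod (M * v))ˣ, (DH (M * v) H d).baseChange O x =
      (ψ (ZMod.unitsMap (dvd_mul_left v M) d) : O) ^ 2 • x)
    {lam : ℕ → O}
    (hT : ∀ (l : ℕ) (hl : l.Prime) (hlN : ¬ l ∣ M * v), l ∉ S →
      (TH (M * v) H hl hlN).baseChange O x = lam l • x)
    {t D : GQ → O} (hps : IsPseudoRep t D)
    (ht : ∀ n, IsLocConst (fun g => Ideal.Quotient.mk (IsLocalRing.maximalIdeal O ^ n) (t g)))
    (hD : ∀ n, IsLocConst (fun g => Ideal.Quotient.mk (IsLocalRing.maximalIdeal O ^ n) (D g)))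
    (hfrob : ∀ l : ℕ, l.Prime → l ∉ S → ¬ l ∣ M * v →
      ∀ P : ValuationSubring (AlgebraicClosure ℚ),
      P.LiesOverPrime l → ∀ τ : GQ, P.IsFrobeniusAt τ l →
        (∀ u : (ZMod v)ˣ, (u : ZMod v) = l → lam l = ψ u * t τ) ∧ D τ = l)
    (hun : ∀ P : ValuationSubring (AlgebraicClosure ℚ), P.LiesOverPrime v →
      ∀ σ ∈ P.inertiaSubgroupIn ℚ, t σ = 2 ∧ D σ = 1)
    (hclaim : ∀ (M₀ q r p : ℕ) [NeZero (q ^ 2 * M₀ * r)] [Fact p.Prime], q.Prime → r.Prime →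
      r % 12 = 11 → ¬ q ∣ M₀ → ¬ r ∣ q * M₀ → q ≠ p → r ≠ p →
        ClaimF' ι (q ^ 2 * M₀ * r) (q * M₀ * r) q p) : x = 0 := by
  classical
  refine twist_false ι hp2 hpO hvM hvp hS (ψ := MulChar.ofUnitHom ψ) ?_ ?_ ?_ hT hps ht hD ?_ hun
    hclaim
  · intro h
    apply hψ
    refine MonoidHom.ext fun u => Units.ext ?_
    have h1 := congrArg (fun χ : MulChar (ZMod v) O => χ u) h
    simp only [MulChar.ofUnitHom_coe, MulChar.one_apply_coe] at h1
    rw [h1]; rfl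
  · refine MulChar.ext fun u => ?_
    rw [MulChar.pow_apply_coe, MulChar.ofUnitHom_coe, MulChar.one_apply_coe, ← Units.val_pow_eq_pow_val,
      hψp, Units.val_one]
  · intro d
    rw [hdia d]
    congr 2
    have h1 : ZMod.castHom (dvd_mul_left v M) (ZMod v) (d : ZMod (M * v)) =
        ((ZMod.unitsMap (dvd_mul_left v M) d : (ZMod v)ˣ) : ZMod v) := rfl
    rw [h1, MulChar.ofUnitHom_coe]
  · intro l hl hlS hlMv P hP τ hτ
    have hlv : ¬ l ∣ v := fun h => hlMv (h.mul_left M)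
    have hunit : IsUnit (l : ZMod v) := (ZMod.isUnit_iff_coprime l v).2
      ((Nat.Prime.coprime_iff_not_dvd hl).2 hlv)
    obtain ⟨u, hu⟩ := hunit
    obtain ⟨h1, h2⟩ := hfrob l hl hlS hlMv P hP τ hτ
    refine ⟨?_, h2⟩
    rw [← hu, MulChar.ofUnitHom_coe]
    exact h1 u hu

end

end Fermat.Agent.Twi
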