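import Fermat.Agent.Twi.Germ

/-!
# Twisting: germ level computations
-/

set_option autoImplicit false
set_option linter.unusedSectionVars false
set_option linter.style.haveILetI false

open Matrix.SpecialLinearGroup Filter
open scoped MatrixGroups TensorProduct
open Fermat.Agent.AL Fermat.Agent.ALCoh Fermat.Agent.TW
open ModularCurve ModularCurve.Period

namespace Fermat.Agent.Twi

noncomputable section

variable {O : Type*} [CommRing O] {M v : ℕ} [hv : Fact v.Prime] {ψ : MulChar (ZMod v) O}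
  {X : SL(2, ℤ) → O}

/-- the translation by `u / v` -/
def al (v : ℕ) (u : ℤ) : M2 := !![(v : ℤ), u; 0, (v : ℤ)]

theorem det_al (v : ℕ) (u : ℤ) : (al v u).det = v * v := by
  rw [al, Matrix.det_fin_two_of]; ring

include hv in
theorem det_al_ne (u : ℤ) : (al v u).det ≠ 0 := by
  rw [det_al]
  exact mul_self_ne_zero.2 (by exact_mod_cast hv.out.ne_zero)

variable (M v ψ X) in
/-- nebentypus `ψ²` -/
structure Dat : Prop where
  dia : ∀ a b c d : ℤ, a * d - b * ((M * v : ℕ) * c) = 1 →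
    act X !![a, b; (M * v : ℕ) * c, d] =ᶠ[deep] fun γ => ψ (d : ZMod v) ^ 2 * X γ

theorem Dat.left (h : Dat M v ψ X) {a b c d : ℤ} (hdet : a * d - b * ((M * v : ℕ) * c) = 1)
    {B₁ B₂ : M2} {k k' : ℤ} (hk : k ≠ 0) (hk' : k' ≠ 0) (hB₂ : B₂.det ≠ 0)
    (e : k • B₁ = k' • (!![a, b; (M * v : ℕ) * c, d] * B₂)) :
    act X B₁ =ᶠ[deep] fun γ => ψ (d : ZMod v) ^ 2 * act X B₂ γ := by
  have hg : (!![a, b; (M * v : ℕ) * c, d] : M2).det ≠ 0 := by
    rw [Matrix.det_fin_two_of, hdet]; exact one_ne_zero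
  rw [← act_smul hk X B₁, e, act_smul hk']
  refine (act_mul X hg hB₂).trans ?_
  exact (act_congr (h.dia a b c d hdet) hB₂)

theorem Dat.left_one (h : Dat M v ψ X) {a b c d : ℤ} (hdet : a * d - b * ((M * v : ℕ) * c) = 1)
    (hd : (d : ZMod v) = 1)
    {B₁ B₂ : M2} {k k' : ℤ} (hk : k ≠ 0) (hk' : k' ≠ 0) (hB₂ : B₂.det ≠ 0)
    (e : k • B₁ = k' • (!![a, b; (M * v : ℕ) * c, d] * B₂)) :
    act X B₁ =ᶠ[deep] act X B₂ := by
  refine (h.left hdet hk hk' hB₂ e).trans (Eventually.of_forall fun γ => ?_)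
  change ψ (d : ZMod v) ^ 2 * act X B₂ γ = _
  rw [hd, map_one, one_pow, one_mul]

/-- dependence on the residue class -/
theorem Dat.al_congr (h : Dat M v ψ X) {u w : ℤ} (huw : (u : ZMod v) = w) {B : M2}
    (hB : B.det ≠ 0) : act X (al v u * B) =ᶠ[deep] act X (al v w * B) := by
  rw [← sub_eq_zero, ← Int.cast_sub, ZMod.intCast_zmod_eq_zero_iff_dvd] at huw
  obtain ⟨k, hk⟩ := huw
  refine h.left_one (a := 1) (b := k) (c := 0) (d := 1) (by ring) (by simp) one_ne_zero one_ne_zero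
    (B₂ := al v w * B) (by rw [Matrix.det_mul]; exact mul_ne_zero (det_al_ne w) hB) ?_
  rw [one_smul, one_smul, ← Matrix.mul_assoc]
  congr 1
  have hu : u = w + v * k := by linear_combination hk
  rw [al, al, Matrix.mul_fin_two, hu]
  congr 1
  ring_nf

theorem Dat.al_congr' (h : Dat M v ψ X) {u w : ℤ} (huw : (u : ZMod v) = w) :
    act X (al v u) =ᶠ[deep] act X (al v w) := by
  have := h.al_congr huw (B := 1) (by rw [Matrix.det_one]; exact one_ne_zero)
  rwa [Matrix.mul_one, Matrix.mul_one] at this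

theorem act_al_zero (X : SL(2, ℤ) → O) : act X (al v 0) = X := by
  have h1 : al v 0 = (v : ℤ) • (1 : M2) := by
    rw [al, Matrix.smul_one_eq_diagonal]
    ext i j
    fin_cases i <;> fin_cases j <;> simp
  rw [h1, act_smul (by exact_mod_cast hv.out.ne_zero), act_one]

variable (v X) in
/-- the translates -/
def G (u : ZMod v) : SL(2, ℤ) → O := act X (al v (u.val : ℤ))

theorem Dat.G_eq (h : Dat M v ψ X) (u : ℤ) : act X (al v u) =ᶠ[deep] G v X (u : ZMod v) := by
  haveI : NeZero v := ⟨hv.out.ne_zero⟩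
  refine h.al_congr' ?_
  push_cast
  rw [ZMod.natCast_zmod_val]

variable (v ψ X) in
/-- the twist -/
def Y : SL(2, ℤ) → O := fun γ => ∑ u : ZMod v, ψ u * G v X u γ

/-- the action of matrices on the twist -/
theorem act_Y {B : M2} (hB : B.det ≠ 0) :
    act (Y v ψ X) B =ᶠ[deep] fun γ => ∑ u : ZMod v, ψ u * act X (al v (u.val : ℤ) * B) γ := by
  have h1 : ∀ᶠ γ in deep, ∀ u : ZMod v, act X (al v (u.val : ℤ) * B) γ =
      act (act X (al v (u.val : ℤ))) B γ := by
    rw [Filter.eventually_all]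
    exact fun u => act_mul X (det_al_ne _) hB
  filter_upwards [h1] with γ h
  simp only [h]
  rfl

/-! ### sums of characters -/

section char

variable [IsDomain O]

theorem sum_psi (hψ : ψ ≠ 1) : ∑ u : ZMod v, ψ u = 0 := MulChar.sum_eq_zero_of_ne_one hψ

/-- the convolution of `ψ` and `ψ⁻¹` -/
theorem sum_conv (hψ : ψ ≠ 1) (s t : ZMod v) (hst : t ≠ s) :
    ∑ b : ZMod v, ψ⁻¹ (s - b) * ψ (t - b) = -1 := by
  classical
  have h1 : ∑ b : ZMod v, ψ⁻¹ (s - b) * ψ (t - b) =
      ∑ b ∈ Finset.univ.erase s, ψ (1 + (t - s) * (s - b)⁻¹) := by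
    rw [← Finset.add_sum_erase _ _ (Finset.mem_univ s), sub_self, MulChar.map_zero, zero_mul,
      zero_add]
    refine Finset.sum_congr rfl fun b hb => ?_
    have hb' : s - b ≠ 0 := sub_ne_zero.2 (Finset.ne_of_mem_erase hb).symm
    rw [MulChar.inv_apply', ← map_mul]
    congr 1
    field_simp
    ring
  have h2 : ∑ b ∈ Finset.univ.erase s, ψ (1 + (t - s) * (s - b)⁻¹) =
      ∑ w ∈ Finset.univ.erase (1 : ZMod v), ψ w := by
    refine Finset.sum_bij' (fun b _ => 1 + (t - s) * (s - b)⁻¹) (fun w _ => s - (t - s) * (w - 1)⁻¹)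
      ?_ ?_ ?_ ?_ ?_
    · intro b hb
      rw [Finset.mem_erase]
      refine ⟨fun h => ?_, Finset.mem_univ _⟩
      have hb' : s - b ≠ 0 := sub_ne_zero.2 (Finset.ne_of_mem_erase hb).symm
      have h3 : (t - s) * (s - b)⁻¹ = 0 := by linear_combination h
      rcases mul_eq_zero.1 h3 with h4 | h4
      · exact hst (sub_eq_zero.1 h4)
      · exact hb' (inv_eq_zero.1 h4)
    · intro w hw
      rw [Finset.mem_erase]
      refine ⟨fun h => ?_, Finset.mem_univ _⟩
      have hw' : w - 1 ≠ 0 := sub_ne_zero.2 (Finset.ne_of_mem_erase hw)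
      have h3 : (t - s) * (w - 1)⁻¹ = 0 := by linear_combination -h
      rcases mul_eq_zero.1 h3 with h4 | h4
      · exact hst (sub_eq_zero.1 h4)
      · exact hw' (inv_eq_zero.1 h4)
    · intro b hb
      have hb' : s - b ≠ 0 := sub_ne_zero.2 (Finset.ne_of_mem_erase hb).symm
      have hts : t - s ≠ 0 := sub_ne_zero.2 hst
      have h4 : 1 + (t - s) * (s - b)⁻¹ - 1 = (t - s) * (s - b)⁻¹ := by ring
      change s - (t - s) * (1 + (t - s) * (s - b)⁻¹ - 1)⁻¹ = b
      rw [h4, mul_inv, inv_inv, ← mul_assoc, mul_inv_cancel₀ hts, one_mul]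
      ring
    · intro w hw
      have hw' : w - 1 ≠ 0 := sub_ne_zero.2 (Finset.ne_of_mem_erase hw)
      have hts : t - s ≠ 0 := sub_ne_zero.2 hst
      change 1 + (t - s) * (s - (s - (t - s) * (w - 1)⁻¹))⁻¹ = w
      rw [sub_sub_cancel, mul_inv, inv_inv, ← mul_assoc, mul_inv_cancel₀ hts, one_mul]
      ring
    · intro b _
      rfl
  rw [h1, h2]
  have h3 := sum_psi (v := v) hψ
  rw [← Finset.add_sum_erase _ _ (Finset.mem_univ (1 : ZMod v)), map_one] at h3
  linear_combination h3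

theorem sum_conv_self (s : ZMod v) : ∑ b : ZMod v, ψ⁻¹ (s - b) * ψ (s - b) = (v : O) - 1 := by
  classical
  rw [← Finset.add_sum_erase _ _ (Finset.mem_univ s), sub_self, MulChar.map_zero, zero_mul,
      zero_add]
  rw [Finset.sum_congr rfl (g := fun _ => (1 : O)) (fun b hb => ?_)]
  · rw [Finset.sum_const, Finset.card_erase_of_mem (Finset.mem_univ s), Finset.card_univ, ZMod.card,
      nsmul_eq_mul, mul_one, Nat.cast_sub hv.out.one_le, Nat.cast_one]
  · have hb' : s - b ≠ 0 := sub_ne_zero.2 (Finset.ne_of_mem_erase hb).symm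
    rw [MulChar.inv_apply', ← map_mul, inv_mul_cancel₀ hb', map_one]

/-- functions with vanishing convolution are constant -/
theorem const_of_conv (hψ : ψ ≠ 1) (g : ZMod v → O) (h : ∀ b, ∑ u : ZMod v, ψ u * g (u + b) = 0)
    (s : ZMod v) : (v : O) * g s = ∑ t : ZMod v, g t := by
  classical
  have h1 : ∑ b : ZMod v, ψ⁻¹ (s - b) * ∑ t : ZMod v, ψ (t - b) * g t = 0 := by
    refine Finset.sum_eq_zero fun b _ => ?_
    have h2 := h b
    rw [← Equiv.sum_comp (Equiv.subRight b)] at h2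
    simp only [Equiv.subRight_apply, sub_add_cancel] at h2
    rw [h2, mul_zero]
  have h3 : ∑ b : ZMod v, ψ⁻¹ (s - b) * ∑ t : ZMod v, ψ (t - b) * g t =
      ∑ t : ZMod v, (∑ b : ZMod v, ψ⁻¹ (s - b) * ψ (t - b)) * g t := by
    simp only [Finset.mul_sum, Finset.sum_mul]
    rw [Finset.sum_comm]
    exact Finset.sum_congr rfl fun t _ => Finset.sum_congr rfl fun b _ => by ring
  rw [h3, ← Finset.add_sum_erase _ _ (Finset.mem_univ s), sum_conv_self] at h1
  rw [Finset.sum_congr rfl (g := fun t => -g t) (fun t ht => by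
    rw [sum_conv hψ s t (Finset.ne_of_mem_erase ht)]; ring), Finset.sum_neg_distrib] at h1
  rw [← Finset.add_sum_erase _ _ (Finset.mem_univ s)]
  linear_combination h1

end char

end

end Fermat.Agent.Twi
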