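import Fermat.Agent.CarK.Bridge
import Fermat.Agent.SemiSt.Galois
import Fermat.Agent.Kum.Action

/-!
# Galois stability of the kernels of the traces
-/

set_option autoImplicit false
set_option linter.unusedSectionVars false
set_option linter.style.haveILetI false

noncomputable section

namespace Fermat.Agent.Twi

open ModularCurve Polynomial IntermediateField Fermat.Agent.ModPoly Fermat.Agent.Red
  Fermat.Agent.Cusp Fermat.Agent.SemiSt Fermat.Agent.ALCoh Fermat.Agent.Kum Fermat.Agent.KumF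
  Fermat.Agent.HeckeProd Fermat.Agent.Nod Fermat.Agent.AL Fermat.Agent.CarK Fermat.Agent.HeckeHom

variable {q M : ℕ} [hq : Fact q.Prime] [NeZero M] (hco : q.Coprime M) {m : ℕ} [NeZero m]
  {K : Type*} [Field K] [IsAlgClosed K] [CharZero K] [Algebra ℚ K] (ι : K →+* ℂ)

omit [Algebra ℚ K] [IsAlgClosed K] [CharZero K] hq in
theorem rep_pow_FF [Algebra ℚ K] [IsAlgClosed K] [CharZero K] {N : ℕ} [NeZero N] (z : FF K N) (hz : z ≠ 0) :
    Rep N (coeffMap ι ((z : LaurentSeries K) ^ m)) (0 : Additive (G0 N) →+ ZMod m) := by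
  rw [map_pow]
  refine rep_pow (coeffMap_mem_MFun_FF ι z) ?_
  intro h
  apply hz
  apply Subtype.ext
  exact (map_eq_zero _).1 h

/-- converse of `exists_NN_w2` -/
theorem tr_eq_zero_of_NN {x : FF K (q ^ 2 * M)} {φ : Additive (G0 (q ^ 2 * M)) →+ ZMod m}
    (h : Rep (q ^ 2 * M) (coeffMap ι (x : LaurentSeries K)) φ) (hMN : q * M ∣ q ^ 2 * M)
    {ζ : Kˣ} (hζ : IsPrimitiveRoot ζ q)
    (hz : ∃ z : FF K (q * M), NN q ζ (CarE.w2 K hco x : LaurentSeries K) =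
      (z : LaurentSeries K) ^ m) : tr hMN (ZMod m) φ = 0 := by
  have hQN : q ^ 2 ∣ q ^ 2 * M := dvd_mul_right _ _
  have hco' : (q ^ 2).Coprime (q ^ 2 * M / q ^ 2) := by
    rw [Nat.mul_div_cancel_left _ (pow_pos hq.out.pos 2)]
    exact hco.pow_left 2
  have hζ' : IsPrimitiveRoot (Units.map (ι : K →* ℂ) ζ) q :=
    hζ.map_of_injective (f := Units.map (ι : K →* ℂ)) (Units.map_injective ι.injective)
  have h1 := rep_NN_wx' (N := q ^ 2 * M) (M' := q * M) (Q := q) (Q' := q ^ 2) (by ring)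
    (pow_two q) hq.out (dvd_mul_right q M) dvd_rfl (coprime_aux hco) hQN hco' hMN hζ' h
  rw [← coeffMap_w2 ι hco hQN hco', ← coeffMap_NN] at h1
  obtain ⟨z, hz⟩ := hz
  rw [hz] at h1
  have hz0 : z ≠ 0 := by
    rintro rfl
    apply h1.ne_zero
    rw [ZeroMemClass.coe_zero, zero_pow (NeZero.ne m), map_zero]
  have h2 := h1.unique (rep_pow_FF (m := m) ι z hz0)
  have h3 := wop_wop (dvd_mul_right q M) (coprime_aux hco) (tr hMN (ZMod m) φ)
  rw [h2, map_zero] at h3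
  exact h3.symm

include hco in
/-- converse of `exists_NN` -/
theorem trw_eq_zero_of_NN {x : FF K (q ^ 2 * M)} {φ : Additive (G0 (q ^ 2 * M)) →+ ZMod m}
    (h : Rep (q ^ 2 * M) (coeffMap ι (x : LaurentSeries K)) φ) (hMN : q * M ∣ q ^ 2 * M)
    (hQN : q ^ 2 ∣ q ^ 2 * M) (hco' : (q ^ 2).Coprime (q ^ 2 * M / q ^ 2))
    {ζ : Kˣ} (hζ : IsPrimitiveRoot ζ q)
    (hz : ∃ z : FF K (q * M), NN q ζ (x : LaurentSeries K) = (z : LaurentSeries K) ^ m) :
    tr hMN (ZMod m) (wop hQN hco' (ZMod m) φ) = 0 := by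
  have h1 : Rep (q ^ 2 * M) (coeffMap ι (CarE.w2 K hco x : LaurentSeries K))
      (wop hQN hco' (ZMod m) φ) := by
    rw [coeffMap_w2 ι hco hQN hco']
    exact rep_wx hQN hco' h
  refine tr_eq_zero_of_NN hco ι h1 hMN hζ ?_
  rw [CarE.w2_w2]
  exact hz

theorem rep_of_cls {N : ℕ} [NeZero N] {x : FK K N} (hx : Good m x) {φ : LZ N}
    (h : cls ι m x = mkX φ) : Rep N (coeffMap ι x.1) (redI m φ) := by
  obtain ⟨ψ, hψ⟩ := hx.exists_mk ι
  have e1 := cls_eq ι hx hψ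
  rw [h, mkX_eq_iff] at e1
  rw [e1]
  exact hψ

/-- functions representing a class and its conjugate -/
theorem exists_rep_pair (σ : K ≃ₐ[ℚ] K) {N : ℕ} [NeZero N] {φ φ' : LZ N}
    (h : rhoF ι m σ (mkX φ : XL N m) = mkX φ') : ∃ x : FF K N,
      Rep N (coeffMap ι (x : LaurentSeries K)) (redI m φ) ∧
      Rep N (coeffMap ι (act N σ.toRingEquiv x : LaurentSeries K)) (redI m φ') := by
  obtain ⟨x, hx, hxφ⟩ := exists_cls_eq' (K := K) ι (mkX φ : XL N m)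
  have hE : FK K N = modularFunctionFieldFullC K N := X0Genus.baseChange_eq K N
  refine ⟨⟨x.1, le_of_eq hE x.2⟩, rep_of_cls ι hx hxφ, ?_⟩
  have h1 := rhoF_cls ι σ hx
  rw [hxφ, h] at h1
  have h2 := rep_of_cls ι (KD.gal σ hx) h1.symm
  rw [coe_galK] at h2
  rw [coe_act]
  exact h2

theorem NN_act (σ : K ≃ₐ[ℚ] K) {N N' : ℕ} {ζ : Kˣ} (hζ : IsPrimitiveRoot ζ q) {y : FF K N}
    (hz : ∃ z : FF K N', NN q ζ (y : LaurentSeries K) = (z : LaurentSeries K) ^ m) :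
    ∃ ζ' : Kˣ, IsPrimitiveRoot ζ' q ∧ ∃ z : FF K N',
      NN q ζ' (act N σ.toRingEquiv y : LaurentSeries K) = (z : LaurentSeries K) ^ m := by
  obtain ⟨z, hz⟩ := hz
  have hinj : Function.Injective (Units.map ((σ.toRingEquiv : K →+* K) : K →* K)) :=
    Units.map_injective σ.injective
  refine ⟨Units.map ((σ.toRingEquiv : K →+* K) : K →* K) ζ, hζ.map_of_injective hinj,
    act N' σ.toRingEquiv z, ?_⟩
  rw [coe_act, coe_act, ← coeffMap_NN, hz, map_pow]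

include hco in
/-- **the kernel of the trace is Galois stable** -/
theorem tr_stable' (σ : K ≃ₐ[ℚ] K) {φ φ' : LZ (q ^ 2 * M)}
    (h : rhoF ι m σ (mkX φ : XL (q ^ 2 * M) m) = mkX φ') (hMN : q * M ∣ q ^ 2 * M)
    (htr : tr hMN (ZMod m) (redI m φ) = 0) : tr hMN (ZMod m) (redI m φ') = 0 := by
  obtain ⟨x, h1, h2⟩ := exists_rep_pair ι σ h
  obtain ⟨ζ, hζ⟩ := Cusp.exists_zeta (k := K) (N := q) (CarE.cast_ne K q)
  obtain ⟨ζ', hζ', hz⟩ := NN_act σ hζ (exists_NN_w2 ι hco h1 hMN htr hζ)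
  refine tr_eq_zero_of_NN hco ι h2 hMN hζ' ?_
  have h3 : act (q ^ 2 * M) σ.toRingEquiv (CarE.w2 K hco x) =
      CarE.w2 K hco (act (q ^ 2 * M) σ.toRingEquiv x) := act_wq _ _ _ _ x
  rwa [h3] at hz

include hco in
/-- **the kernel of the second trace is Galois stable** -/
theorem trw_stable' (σ : K ≃ₐ[ℚ] K) {φ φ' : LZ (q ^ 2 * M)}
    (h : rhoF ι m σ (mkX φ : XL (q ^ 2 * M) m) = mkX φ') (hMN : q * M ∣ q ^ 2 * M)
    (hQN : q ^ 2 ∣ q ^ 2 * M) (hco' : (q ^ 2).Coprime (q ^ 2 * M / q ^ 2))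
    (htr : tr hMN (ZMod m) (wop hQN hco' (ZMod m) (redI m φ)) = 0) :
    tr hMN (ZMod m) (wop hQN hco' (ZMod m) (redI m φ')) = 0 := by
  obtain ⟨x, h1, h2⟩ := exists_rep_pair ι σ h
  obtain ⟨ζ, hζ⟩ := Cusp.exists_zeta (k := K) (N := q) (CarE.cast_ne K q)
  obtain ⟨ζ', hζ', hz⟩ := NN_act σ hζ (exists_NN ι hco h1 hMN hQN hco' htr hζ)
  exact trw_eq_zero_of_NN hco ι h2 hMN hQN hco' hζ' hz

include hco in
theorem tr_stable (σ : K ≃ₐ[ℚ] K) {N N' : ℕ} [NeZero N] (hN : N = q ^ 2 * M) (hN' : N' = q * M)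
    {φ φ' : LZ N} (h : rhoF ι m σ (mkX φ : XL N m) = mkX φ') (hMN : N' ∣ N)
    (htr : tr hMN (ZMod m) (redI m φ) = 0) : tr hMN (ZMod m) (redI m φ') = 0 := by
  subst hN
  subst hN'
  exact tr_stable' hco ι σ h hMN htr

include hco in
theorem trw_stable (σ : K ≃ₐ[ℚ] K) {N N' : ℕ} [NeZero N] (hN : N = q ^ 2 * M) (hN' : N' = q * M)
    {φ φ' : LZ N} (h : rhoF ι m σ (mkX φ : XL N m) = mkX φ') (hMN : N' ∣ N)
    (hQN : q ^ 2 ∣ N) (hco' : (q ^ 2).Coprime (N / q ^ 2))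
    (htr : tr hMN (ZMod m) (wop hQN hco' (ZMod m) (redI m φ)) = 0) :
    tr hMN (ZMod m) (wop hQN hco' (ZMod m) (redI m φ')) = 0 := by
  subst hN
  subst hN'
  exact trw_stable' hco ι σ h hMN hQN hco' htr

end Fermat.Agent.Twi
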