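import Fermat.Agent.Twi.Lift2
import Fermat.Agent.Twi.Stab
import Fermat.Agent.HD.ClaimMod

/-!
# Twisting: the contradiction
-/

set_option autoImplicit false
set_option linter.unusedSectionVars false
set_option linter.style.haveILetI false

open TensorProduct ModularFormClass CuspForm ModularCurve ModularCurve.Period
open Fermat.Agent.AL Fermat.Agent.ALCoh Fermat.Agent.TW

namespace Fermat.Agent.Twi

open Fermat.Agent.GalRep Fermat.Agent.Kum Fermat.Agent.HeckeHom Fermat.Agent.HD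

noncomputable section

/-! ### linear algebra -/

section lin

variable {O L L' : Type*} [CommRing O] [AddCommGroup L] [AddCommGroup L']

theorem exists_lift_ker [Module.Flat ℤ O] (f : L →ₗ[ℤ] L') (ξ : O ⊗[ℤ] L)
    (h : f.baseChange O ξ = 0) :
    ∃ ξ' : O ⊗[ℤ] LinearMap.ker f, (LinearMap.ker f).subtype.baseChange O ξ' = ξ := by
  have hex : Function.Exact (LinearMap.ker f).subtype f := by
    rw [LinearMap.exact_iff, Submodule.range_subtype]
  exact (Module.Flat.lTensor_exact O hex ξ).1 h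

theorem exists_lift_ker2 [Module.Flat ℤ O] (f g : L →ₗ[ℤ] L') (ξ : O ⊗[ℤ] L)
    (h : f.baseChange O ξ = 0) (h' : g.baseChange O ξ = 0) :
    ∃ ξ' : O ⊗[ℤ] ↥(LinearMap.ker (f.prod g)),
      (LinearMap.ker (f.prod g)).subtype.baseChange O ξ' = ξ := by
  apply exists_lift_ker
  have h1 : ∀ ξ : O ⊗[ℤ] L, TensorProduct.prodRight ℤ O O L' L' ((f.prod g).baseChange O ξ) =
      (f.baseChange O ξ, g.baseChange O ξ) := by
    intro ξ
    induction ξ with
    | zero => rw [map_zero, map_zero, map_zero, map_zero]; rfl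
    | tmul o x => simp
    | add x y hx hy => rw [map_add, map_add, hx, hy, map_add, map_add]; rfl
  apply (TensorProduct.prodRight ℤ O O L' L').injective
  rw [h1, h, h', map_zero]
  rfl

end lin

/-! ### the Galois modules -/

section mods

variable {N N' Q : ℕ} [NeZero N] [NeZero N'] {m : ℕ} [NeZero m]

/-- reduction -/
def redX : XL N m →+ (Additive (GG N) →+ ZMod m) :=
  QuotientAddGroup.lift (mL N m)
    { toFun := redI m, map_zero' := redI_zero, map_add' := redI_add }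
    (fun _ hφ => mem_mL.1 hφ)

theorem redX_mkX (φ : LZ N) : redX (mkX φ : XL N m) = redI m φ := rfl

variable (m) in
/-- the kernel of both traces -/
def XK (hMN : N' ∣ N) (hQN : Q ∣ N) (hco : Q.Coprime (N / Q)) : Submodule ℤ (XL N m) :=
  AddSubgroup.toIntSubmodule
    ((((tr hMN (ZMod m)).comp redX).ker) ⊓ (((tr hMN (ZMod m)).comp
      ((wop hQN hco (ZMod m)).comp redX)).ker))

theorem mem_XK (hMN : N' ∣ N) (hQN : Q ∣ N) (hco : Q.Coprime (N / Q)) {φ : LZ N} :
    (mkX φ : XL N m) ∈ XK m hMN hQN hco ↔ tr hMN (ZMod m) (redI m φ) = 0 ∧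
      tr hMN (ZMod m) (wop hQN hco (ZMod m) (redI m φ)) = 0 := Iff.rfl

variable (hMN : N' ∣ N) (hQN : Q ∣ N) (hco : Q.Coprime (N / Q))

/-- the trace of `T_l` -/
theorem redI_T {S : Set ℕ} {l : ℕ} (hl : l.Prime) (hlN : ¬ l ∣ N) (hlS : l ∉ S) (φ : LZ N) :
    redI m (actL N S (heckeAlgebra.T hl hlN hlS) φ) = (famT hl hlN).op (ZMod m) (redI m φ) := by
  rw [redI, actL_T hl hlN hlS φ, comp_opT hl hlN, opT_eq hl hlN]
  rfl

theorem aX_mem {S : Set ℕ} (hNS : ∀ q : ℕ, q.Prime → q ∣ N → q ∈ S)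
    (t : heckeAlgebra N 2 S) {x : XL N m} (hx : x ∈ XK m hMN hQN hco) :
    aX N m t x ∈ XK m hMN hQN hco := by
  obtain ⟨P, rfl⟩ := evT_surjective hNS t
  induction P using MvPolynomial.induction_on generalizing x with
  | C a =>
    have h1 : (MvPolynomial.C a : MvPolynomial (sg S) ℤ) = (a : MvPolynomial (sg S) ℤ) := by simp
    rw [h1, map_intCast, aX_apply, map_intCast]
    exact Submodule.smul_mem _ a hx
  | add P P' ih ih' =>
    rw [map_add, aX_apply, map_add]
    exact Submodule.add_mem _ (ih hx) (ih' hx)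
  | mul_X P l ih =>
    have h1 : aX N m (evT hNS (P * MvPolynomial.X l)) x =
        aX N m (evT hNS P) (aX N m (evT hNS (MvPolynomial.X l)) x) := by
      rw [map_mul, aX_apply, map_mul]; rfl
    rw [h1]
    apply ih
    obtain ⟨φ, rfl⟩ := mkX_surjective x
    have hlN : ¬ (l : ℕ) ∣ N := fun h => l.2.2 (hNS l l.2.1 h)
    have hlN' : ¬ (l : ℕ) ∣ N' := fun h => hlN (h.trans hMN)
    rw [evT_X, aX_apply, actX_mkX, mem_XK, redI_T]
    rw [mem_XK] at hx
    rw [wop_T_comm hQN hco l.2.1 hlN, tr_T_comm' hMN l.2.1 hlN hlN',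
      tr_T_comm' hMN l.2.1 hlN hlN', hx.1, hx.2, map_zero]
    exact ⟨rfl, rfl⟩

end mods

section main

variable {q M : ℕ} [hq : Fact q.Prime] [NeZero M] {N N' : ℕ} [NeZero N] [NeZero N']
  {m : ℕ} [NeZero m]

theorem rX_mem (hN : N = q ^ 2 * M) (hN' : N' = q * M) (hco : q.Coprime M) (hMN : N' ∣ N)
    (hQN : q ^ 2 ∣ N) (hco' : (q ^ 2).Coprime (N / q ^ 2)) (ι : AlgebraicClosure ℚ →+* ℂ) (σ : GQ)
    {x : XL N m} (hx : x ∈ XK m hMN hQN hco') : rX ι N m σ x ∈ XK m hMN hQN hco' := by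
  obtain ⟨φ, rfl⟩ := mkX_surjective x
  obtain ⟨φ', hφ'⟩ := mkX_surjective (rhoF ι m σ (mkX φ : XL N m))
  rw [mem_XK] at hx
  rw [rX_apply, ← hφ', mem_XK]
  exact ⟨tr_stable hco ι σ hN hN' hφ'.symm hMN hx.1,
    trw_stable hco ι σ hN hN' hφ'.symm hMN hQN hco' hx.2⟩

/-- restriction of an operator -/
theorem baseChange_restrict_mem {O X : Type*} [CommRing O] [AddCommGroup X] (K : Submodule ℤ X)
    [Module.Flat ℤ O] {A : Module.End ℤ X} (hA : ∀ x ∈ K, A x ∈ K) {lam : O} {y : O ⊗[ℤ] K}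
    (hy : A.baseChange O (K.subtype.baseChange O y) = lam • K.subtype.baseChange O y) :
    (A.restrict hA).baseChange O y = lam • y := by
  have hinj : Function.Injective (K.subtype.baseChange O) :=
    Module.Flat.lTensor_preserves_injective_linearMap _ (Submodule.injective_subtype _)
  apply hinj
  rw [map_smul, ← hy, ← LinearMap.comp_apply, ← LinearMap.comp_apply, ← LinearMap.baseChange_comp,
    ← LinearMap.baseChange_comp]
  rfl

set_option maxHeartbeats 1000000 in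
/-- **vanishing at level `q ^ 2 M`**: an eigenvector killed by both traces, whose pseudo-representation
is unipotent on inertia at `q`, vanishes. -/
theorem eq_zero_of_traces (ι : AlgebraicClosure ℚ →+* ℂ)
    {O : Type*} [CommRing O] [IsDomain O] [IsDiscreteValuationRing O] [CharZero O]
    {p : ℕ} [Fact p.Prime] (hp2 : p ≠ 2) (hpO : (p : O) ∈ IsLocalRing.maximalIdeal O)
    (hN : N = q ^ 2 * M) (hN' : N' = q * M) (hco : q.Coprime M) (hMN : N' ∣ N)
    (hQN : q ^ 2 ∣ N) (hco' : (q ^ 2).Coprime (N / q ^ 2)) (hclaim : ClaimF' ι N N' q p)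
    {f g : LZ N →ₗ[ℤ] LZ N'} (hf : ∀ φ, (f φ).1 = tr hMN ℤ φ.1)
    (hg : ∀ φ, (g φ).1 = tr hMN ℤ (wop hQN hco' ℤ φ.1))
    {S : Set ℕ} (hS : S.Finite) {t D : GQ → O} (hps : IsPseudoRep t D)
    (ht : ∀ n, IsLocConst (fun g => Ideal.Quotient.mk (IsLocalRing.maximalIdeal O ^ n) (t g)))
    (hD : ∀ n, IsLocConst (fun g => Ideal.Quotient.mk (IsLocalRing.maximalIdeal O ^ n) (D g)))
    (ξ : O ⊗[ℤ] LZ N) (hξf : f.baseChange O ξ = 0) (hξg : g.baseChange O ξ = 0) (lam : ℕ → O)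
    (hξ : ∀ (l : ℕ) (hl : l.Prime) (hlN : ¬ l ∣ N), l ∉ S →
      (TG hl hlN).baseChange O ξ = lam l • ξ)
    (hfrob : ∀ l : ℕ, l.Prime → l ∉ S → ¬ l ∣ N → ∀ P : ValuationSubring (AlgebraicClosure ℚ),
      P.LiesOverPrime l → ∀ τ : GQ, P.IsFrobeniusAt τ l → lam l = t τ ∧ D τ = l)
    (hun : ∀ P : ValuationSubring (AlgebraicClosure ℚ), P.LiesOverPrime q →
      ∀ σ ∈ P.inertiaSubgroupIn ℚ, t σ = 2 ∧ D σ = 1) : ξ = 0 := by
  have hp : p.Prime := Fact.out
  obtain ⟨A, hA, C, hC, hF⟩ := hclaim hMN hQN hco'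
  -- the finite set of bad primes
  set S₁ : Set ℕ := S ∪ badSet N p with hS₁
  have hSS₁ : S ⊆ S₁ := Set.subset_union_left
  have hbad : badSet N p ⊆ S₁ := Set.subset_union_right
  have hS₁f : S₁.Finite := hS.union (by
    have h0 : N * p ≠ 0 := mul_ne_zero (NeZero.ne _) hp.ne_zero
    refine (Set.finite_Iic (N * p)).subset fun d hd => ?_
    exact Nat.le_of_dvd (Nat.pos_of_ne_zero h0) hd)
  have hdvd : ∀ d, d ∣ N → d ∈ S₁ := fun d hd => hbad (dvd_mul_of_dvd_left hd p)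
  have hNS : ∀ q : ℕ, q.Prime → q ∣ N → q ∈ S₁ := fun d _ hd => hdvd d hd
  have h2 : IsUnit (2 : O) := isUnit_two hp hp2 hpO
  have hpu : ¬ IsUnit (p : O) := (IsLocalRing.mem_maximalIdeal _).1 hpO
  have hpn : ∀ n, ((p ^ n : ℕ) : O) ≠ 0 := fun n =>
    Nat.cast_ne_zero.2 (pow_ne_zero n hp.ne_zero)
  haveI : Module.Flat ℤ O := inferInstance
  obtain ⟨ξ', hξ'⟩ := exists_lift_ker2 f g ξ hξf hξg
  let L := ↥(LinearMap.ker (f.prod g))
  have hLmem : ∀ φ : LZ N, φ ∈ LinearMap.ker (f.prod g) ↔ f φ = 0 ∧ g φ = 0 := by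
    intro φ
    rw [LinearMap.mem_ker, LinearMap.prod_apply]
    exact Prod.ext_iff
  -- the maps to the Galois modules
  have hπ : ∀ n, ∀ φ ∈ LinearMap.ker (f.prod g),
      (mkX φ : XL N (p ^ n)) ∈ XK (p ^ n) hMN hQN hco' := by
    intro n φ hφ
    rw [hLmem] at hφ
    have h3 : tr hMN ℤ φ.1 = 0 := by rw [← hf, hφ.1]; rfl
    have h4 : tr hMN ℤ (wop hQN hco' ℤ φ.1) = 0 := by rw [← hg, hφ.2]; rfl
    rw [mem_XK]
    constructor
    · have := comp_tr hMN (Int.castAddHom (ZMod (p ^ n))) φ.1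
      rw [h3, AddMonoidHom.comp_zero] at this
      exact this.symm
    · have e1 := comp_tr hMN (Int.castAddHom (ZMod (p ^ n))) (wop hQN hco' ℤ φ.1)
      have e2 := comp_wop hQN hco' (Int.castAddHom (ZMod (p ^ n))) φ.1
      rw [h4, e2, AddMonoidHom.comp_zero] at e1
      exact e1.symm
  let π : ∀ n, L →ₗ[ℤ] XK (p ^ n) hMN hQN hco' := fun n =>
    (mkX : LZ N →+ XL N (p ^ n)).toIntLinearMap.restrict (p := LinearMap.ker (f.prod g))
      (q := XK (p ^ n) hMN hQN hco') (hπ n)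
  let r : ∀ n, GQ →* Module.End ℤ (XK (N := N) (p ^ n) hMN hQN hco') := fun n =>
    { toFun := fun σ => (rX ι N (p ^ n) σ).restrict
        (fun x hx => rX_mem hN hN' hco hMN hQN hco' ι σ hx)
      map_one' := LinearMap.ext fun x => Subtype.ext (by
        rw [LinearMap.coe_restrict_apply, map_one]; rfl)
      map_mul' := fun σ τ => LinearMap.ext fun x => Subtype.ext (by
        rw [LinearMap.coe_restrict_apply, map_mul]; rfl) }
  let AX : ∀ n : ℕ, sg S₁ → Module.End ℤ (XK (N := N) (p ^ n) hMN hQN hco') := fun n l =>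
    (aX N (p ^ n) (heckeAlgebra.T l.2.1 (fun h => l.2.2 (hNS l l.2.1 h)) l.2.2 :
      heckeAlgebra N 2 S₁)).restrict (fun x hx => aX_mem hMN hQN hco' hNS _ hx)
  have hlev : ∀ n, ∃ L : IntermediateField ℚ (AlgebraicClosure ℚ), FiniteDimensional ℚ L ∧
      ∀ σ : GQ, (∀ x ∈ L, σ x = x) → r n σ = 1 := by
    intro n
    obtain ⟨E, hE, h⟩ := exists_level_rX (N := N) (m := p ^ n) ι
    refine ⟨E, hE, fun σ hσ => LinearMap.ext fun x => Subtype.ext ?_⟩
    change rX ι N (p ^ n) σ (x : XL N (p ^ n)) = x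
    rw [h σ hσ]
    rfl
  have key : ξ' = 0 := by
    refine core (O := O) (L := L) h2 hpu (X := fun n => XK (N := N) (p ^ n) hMN hQN hco')
      (fun n x => Subtype.ext (XL_killed (x : XL N (p ^ n))))
      π ?_ r hlev AX (fun l => lam l) ?_ hps (fun n => isLocConst_span (hpn n) ht)
      (fun n => isLocConst_span (hpn n) hD) hS₁f ?_ (I := A.inertiaSubgroupIn ℚ)
      (fun σ hσ => (hun A hA σ hσ).1) (fun σ hσ => (hun A hA σ hσ).2)
      (fun n => (C : ℤ) • 1) (c := (C : O))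
      (Nat.cast_ne_zero.2 hC.ne') ?_ ?_ ξ' ?_
    · -- kernel
      intro n x hx
      obtain ⟨ψ, hψ⟩ := mkX_eq_zero (N := N) (m := p ^ n) (congrArg Subtype.val hx)
      have h3 := (hLmem _).1 x.2
      have hψ' : (x : LZ N) = p ^ n • ψ := hψ
      rw [hψ'] at h3
      have hpz : p ^ n ≠ 0 := pow_ne_zero n hp.ne_zero
      have htf : ∀ χ : LZ N', p ^ n • χ = 0 → χ = 0 := by
        intro χ hχ
        apply Subtype.ext
        refine AddMonoidHom.ext fun γ => ?_
        have h4 := DFunLike.congr_fun (congrArg Subtype.val hχ) γ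
        change p ^ n • (χ.1 γ : ℤ) = 0 at h4
        rw [nsmul_eq_mul, mul_eq_zero] at h4
        exact h4.resolve_left (by exact_mod_cast hpz)
      refine ⟨⟨ψ, (hLmem _).2 ⟨htf _ ?_, htf _ ?_⟩⟩, Subtype.ext hψ⟩
      · rw [← map_nsmul]; exact h3.1
      · rw [← map_nsmul]; exact h3.2
    · -- commutation
      intro n l σ
      refine LinearMap.ext fun x => Subtype.ext ?_
      exact rhoF_act ι hdvd σ _ (x : XL N (p ^ n))
    · -- Frobenius
      intro l hl hlS P hP τ hτ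
      have hlN : ¬ l ∣ N := fun h => hlS (hdvd l h)
      have hlS' : l ∉ S := fun h => hlS (hSS₁ h)
      refine ⟨⟨l, hl, hlS⟩, (hfrob l hl hlS' hlN P hP τ hτ).1, (hfrob l hl hlS' hlN P hP τ hτ).2,
        fun n x => Subtype.ext ?_⟩
      exact rX_frob ι hl hlN hlS (fun h => hlS (hbad (dvd_mul_of_dvd_right
          (hl.dvd_of_dvd_pow h) N))) hP hτ (x : XL N (p ^ n))
    · -- killing of invariants
      rintro n ⟨x, hxK⟩ hx
      obtain ⟨φ, rfl⟩ := mkX_surjective x
      apply Subtype.ext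
      change (C : ℤ) • (mkX φ : XL N (p ^ n)) = 0
      rw [natCast_zsmul]
      rw [mem_XK] at hxK
      exact hF n φ (fun σ hσ => congrArg Subtype.val (hx σ hσ)) hxK.1 hxK.2
    · -- action on eigenvectors
      intro n y hy
      rw [LinearMap.baseChange_smul, LinearMap.smul_apply, HD.baseChange_one_apply,
        natCast_zsmul, Nat.cast_smul_eq_nsmul]
    · -- the eigenvector
      intro n l
      have hlN : ¬ (l : ℕ) ∣ N := fun h => l.2.2 (hdvd l h)
      have hlS' : (l : ℕ) ∉ S := fun h => l.2.2 (hSS₁ h)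
      apply baseChange_restrict_mem
      have e1 : ((XK (p ^ n) hMN hQN hco').subtype.baseChange O) ((π n).baseChange O ξ') =
          (mkX : LZ N →+ XL N (p ^ n)).toIntLinearMap.baseChange O ξ := by
        rw [← hξ', ← LinearMap.comp_apply, ← LinearMap.comp_apply, ← LinearMap.baseChange_comp,
          ← LinearMap.baseChange_comp]
        rfl
      rw [e1, ← map_smul, ← hξ l l.2.1 hlN hlS', ← LinearMap.comp_apply, ← LinearMap.comp_apply,
        ← LinearMap.baseChange_comp, ← LinearMap.baseChange_comp]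
      congr 2
      refine LinearMap.ext fun φ => ?_
      change actX N (p ^ n) S₁ _ (mkX φ) = mkX _
      rw [actX_mkX]
      congr 1
      apply Subtype.ext
      rw [actL_T, opT_eq]
      rfl
  rw [← hξ', key, map_zero]

end main

end

end Fermat.Agent.Twi
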