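import Fermat.Agent.TW.Eis2

/-!
# Germs of functions on `SL(2, ℤ)` along deep congruence subgroups
-/

set_option autoImplicit false
set_option linter.unusedSectionVars false
set_option linter.style.haveILetI false

open Matrix.SpecialLinearGroup Filter
open scoped MatrixGroups TensorProduct
open Fermat.Agent.AL Fermat.Agent.ALCoh Fermat.Agent.TW
open ModularCurve ModularCurve.Period

namespace Fermat.Agent.Twi

noncomputable section

/-- congruence to `1` modulo `D` -/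
def Dp (D : ℕ) (γ : SL(2, ℤ)) : Prop := ∀ i j, (D : ℤ) ∣ (γ : M2) i j - (1 : M2) i j

theorem Dp.mono {D D' : ℕ} (h : D ∣ D') {γ : SL(2, ℤ)} (hγ : Dp D' γ) : Dp D γ :=
  fun i j => (Int.natCast_dvd_natCast.2 h).trans (hγ i j)

/-- the filter of deep elements -/
def deep : Filter SL(2, ℤ) where
  sets := {s | ∃ D : ℕ, D ≠ 0 ∧ ∀ γ, Dp D γ → γ ∈ s}
  univ_sets := ⟨1, one_ne_zero, fun _ _ => trivial⟩
  sets_of_superset := fun ⟨D, hD, h⟩ hst => ⟨D, hD, fun γ hγ => hst (h γ hγ)⟩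
  inter_sets := fun ⟨D, hD, h⟩ ⟨D', hD', h'⟩ => ⟨D * D', mul_ne_zero hD hD', fun γ hγ =>
    ⟨h γ (hγ.mono (dvd_mul_right _ _)), h' γ (hγ.mono (dvd_mul_left _ _))⟩⟩

theorem mem_deep {s : Set SL(2, ℤ)} : s ∈ deep ↔ ∃ D : ℕ, D ≠ 0 ∧ ∀ γ, Dp D γ → γ ∈ s := Iff.rfl

theorem eventually_deep {P : SL(2, ℤ) → Prop} :
    (∀ᶠ γ in deep, P γ) ↔ ∃ D : ℕ, D ≠ 0 ∧ ∀ γ, Dp D γ → P γ := Iff.rfl

/-- choice -/
def pick (P : SL(2, ℤ) → Prop) : SL(2, ℤ) :=
  open Classical in if h : ∃ δ : SL(2, ℤ), P δ then h.choose else 1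

/-- conjugation -/
def cj (B : M2) (γ : SL(2, ℤ)) : SL(2, ℤ) :=
  pick fun δ => B * (γ : M2) = (δ : M2) * B

variable {A B : M2} {γ δ : SL(2, ℤ)}

theorem cj_eq (hB : B.det ≠ 0) (h : B * (γ : M2) = (δ : M2) * B) : cj B γ = δ := by
  have hex : ∃ δ : SL(2, ℤ), B * (γ : M2) = (δ : M2) * B := ⟨δ, h⟩
  rw [cj, pick, dif_pos hex]
  apply Subtype.ext
  exact mul_right_cancel_det hB (hex.choose_spec.symm.trans h)

theorem exists_cj (hB : B.det ≠ 0) {D : ℕ} (hγ : Dp (B.det.natAbs * D) γ) :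
    ∃ δ : SL(2, ℤ), B * (γ : M2) = (δ : M2) * B ∧ Dp D δ := by
  have h1 : ∀ i j, (B.det * D) ∣ (γ : M2) i j - (1 : M2) i j := by
    intro i j
    refine dvd_trans ?_ (hγ i j)
    rw [← Int.natAbs_dvd_natAbs, Int.natAbs_mul, Int.natAbs_natCast, Int.natAbs_natCast]
  choose c hc using h1
  let X : M2 := fun i j => c i j
  have hX : (γ : M2) = 1 + (B.det * D) • X := by
    ext i j
    rw [Matrix.add_apply, Matrix.smul_apply, smul_eq_mul, ← hc i j]
    ring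
  let Y : M2 := 1 + (D : ℤ) • (B * X * B.adjugate)
  have hY : B * (γ : M2) = Y * B := by
    rw [hX, Matrix.mul_add, Matrix.mul_one, Matrix.mul_smul, Matrix.add_mul, Matrix.one_mul,
      Matrix.smul_mul, Matrix.mul_assoc, Matrix.adjugate_mul, Matrix.mul_smul, Matrix.mul_one,
      smul_smul, mul_comm (B.det)]
  have hdet : Y.det = 1 := by
    have h2 := congrArg Matrix.det hY
    rw [Matrix.det_mul, Matrix.det_mul, γ.det_coe, mul_one] at h2
    have h3 : B.det * (Y.det - 1) = 0 := by rw [mul_sub, mul_one, sub_eq_zero, mul_comm, ← h2]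
    exact sub_eq_zero.1 ((mul_eq_zero.1 h3).resolve_left hB)
  refine ⟨⟨Y, hdet⟩, hY, fun i j => ?_⟩
  change (D : ℤ) ∣ (1 + (D : ℤ) • (B * X * B.adjugate)) i j - _
  rw [Matrix.add_apply, add_sub_cancel_left, Matrix.smul_apply, smul_eq_mul]
  exact dvd_mul_right _ _

theorem eventually_cj (hB : B.det ≠ 0) : ∀ᶠ γ : SL(2, ℤ) in deep, B * (γ : M2) = ((cj B γ : SL(2, ℤ)) : M2) * B := by
  refine ⟨B.det.natAbs * 1, by simpa using hB, fun γ hγ => ?_⟩
  obtain ⟨δ, hδ, -⟩ := exists_cj hB hγ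
  change B * (γ : M2) = ((cj B γ : SL(2, ℤ)) : M2) * B
  rw [cj_eq hB hδ, hδ]

theorem tendsto_cj (hB : B.det ≠ 0) : Tendsto (cj B) deep deep := by
  rintro s ⟨D, hD, h⟩
  refine ⟨B.det.natAbs * D, mul_ne_zero (by simpa using hB) hD, fun γ hγ => ?_⟩
  obtain ⟨δ, hδ, hδ'⟩ := exists_cj hB hγ
  change cj B γ ∈ s
  rw [cj_eq hB hδ]
  exact h δ hδ'

theorem cj_mul (hA : A.det ≠ 0) (hB : B.det ≠ 0) :
    ∀ᶠ γ in deep, cj (A * B) γ = cj A (cj B γ) := by
  filter_upwards [eventually_cj hB, (tendsto_cj hB).eventually (eventually_cj hA)] with γ h1 h2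
  refine cj_eq (by rw [Matrix.det_mul]; exact mul_ne_zero hA hB) ?_
  rw [Matrix.mul_assoc, h1, ← Matrix.mul_assoc, h2, Matrix.mul_assoc]

theorem cj_smul {c : ℤ} (hc : c ≠ 0) (B : M2) (γ : SL(2, ℤ)) : cj (c • B) γ = cj B γ := by
  refine congrArg pick (funext fun δ => propext ?_)
  rw [Matrix.smul_mul, Matrix.mul_smul]
  exact (smul_right_injective M2 hc).eq_iff

theorem cj_coe (g γ : SL(2, ℤ)) : cj (g : M2) γ = g * γ * g⁻¹ := by
  refine cj_eq (by rw [g.det_coe]; exact one_ne_zero) ?_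
  rw [← Matrix.SpecialLinearGroup.coe_mul, ← Matrix.SpecialLinearGroup.coe_mul,
    inv_mul_cancel_right]

/-! ### the action on functions -/

variable {O : Type*}

/-- the action of matrices on functions -/
def act (f : SL(2, ℤ) → O) (B : M2) : SL(2, ℤ) → O := fun γ => f (cj B γ)

theorem act_apply (f : SL(2, ℤ) → O) (B : M2) (γ : SL(2, ℤ)) : act f B γ = f (cj B γ) := rfl

theorem act_mul (f : SL(2, ℤ) → O) (hA : A.det ≠ 0) (hB : B.det ≠ 0) :
    act f (A * B) =ᶠ[deep] act (act f A) B := by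
  filter_upwards [cj_mul hA hB] with γ h
  rw [act_apply, h]
  rfl

theorem act_smul {c : ℤ} (hc : c ≠ 0) (f : SL(2, ℤ) → O) (B : M2) : act f (c • B) = act f B :=
  funext fun γ => by rw [act_apply, cj_smul hc]; rfl

theorem act_congr {f g : SL(2, ℤ) → O} (h : f =ᶠ[deep] g) (hB : B.det ≠ 0) :
    act f B =ᶠ[deep] act g B := (tendsto_cj hB).eventually h

theorem act_one (f : SL(2, ℤ) → O) : act f 1 = f := by
  funext γ
  rw [act_apply]
  congr 1
  exact cj_eq (by rw [Matrix.det_one]; exact one_ne_zero) (by rw [Matrix.one_mul, Matrix.mul_one])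

/-! ### homomorphisms as functions -/

section ext0

variable {Γ Γ' : Subgroup SL(2, ℤ)} [AddCommGroup O]

/-- extension by zero -/
def ext0 (φ : Additive Γ →+ O) (γ : SL(2, ℤ)) : O :=
  open Classical in if h : γ ∈ Γ then φ (Additive.ofMul ⟨γ, h⟩) else 0

theorem ext0_of_mem (φ : Additive Γ →+ O) (h : γ ∈ Γ) : ext0 φ γ = φ (Additive.ofMul ⟨γ, h⟩) := by
  rw [ext0, dif_pos h]

theorem ext0_add (φ ψ : Additive Γ →+ O) : ext0 (φ + ψ) = ext0 φ + ext0 ψ := by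
  funext γ
  rw [Pi.add_apply, ext0, ext0, ext0]
  split_ifs
  · rfl
  · rw [add_zero]

/-- operators in terms of germs -/
theorem ext0_op {ι : Type*} [Fintype ι] {rep : ι → M2} (hF : Fam Γ Γ' rep)
    (hΓ : ∀ᶠ γ in deep, γ ∈ Γ) (hΓ' : ∀ᶠ γ in deep, γ ∈ Γ') (φ : Additive Γ →+ O) :
    ext0 (hF.op O φ) =ᶠ[deep] fun γ => ∑ x, act (ext0 φ) (rep x) γ := by
  have h1 : ∀ᶠ γ : SL(2, ℤ) in deep, ∀ x, rep x * (γ : M2) = ((cj (rep x) γ : SL(2, ℤ)) : M2) * rep x ∧
      cj (rep x) γ ∈ Γ := by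
    rw [Filter.eventually_all]
    intro x
    exact (eventually_cj (hF.det x)).and ((tendsto_cj (hF.det x)).eventually hΓ)
  filter_upwards [h1, hΓ'] with γ h h'
  rw [ext0_of_mem _ h', Fam.op_apply_of_tr hF φ ⟨γ, h'⟩ (σ := 1)
    (g := fun x => ⟨cj (rep x) γ, (h x).2⟩) (fun x => (h x).1)]
  refine Finset.sum_congr rfl fun x _ => ?_
  rw [act_apply, ext0_of_mem _ (h x).2]

theorem exists_pow_Dp {D : ℕ} (hD : D ≠ 0) (γ : SL(2, ℤ)) : ∃ k : ℕ, k ≠ 0 ∧ Dp D (γ ^ k) := by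
  haveI : NeZero D := ⟨hD⟩
  let π := Matrix.SpecialLinearGroup.map (n := Fin 2) (Int.castRingHom (ZMod D))
  haveI : Finite SL(2, ZMod D) := inferInstance
  refine ⟨Nat.card SL(2, ZMod D), Nat.card_pos.ne', fun i j => ?_⟩
  have h1 : π (γ ^ Nat.card SL(2, ZMod D)) = 1 := by rw [map_pow, pow_card_eq_one']
  have h2 := congrArg (fun X : SL(2, ZMod D) => (X : Matrix (Fin 2) (Fin 2) (ZMod D)) i j) h1
  rw [← ZMod.intCast_zmod_eq_zero_iff_dvd, Int.cast_sub, sub_eq_zero]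
  have h3 : (((1 : M2) i j : ℤ) : ZMod D) = (1 : Matrix (Fin 2) (Fin 2) (ZMod D)) i j := by
    rw [Matrix.one_apply, Matrix.one_apply]
    split_ifs <;> simp
  rw [h3]
  exact h2

/-- homomorphisms to torsion free groups are determined by their germs -/
theorem eq_zero_of_ext0 (hO : ∀ (k : ℕ) (a : O), k ≠ 0 → k • a = 0 → a = 0) {φ : Additive Γ →+ O}
    (h : ext0 φ =ᶠ[deep] 0) : φ = 0 := by
  obtain ⟨D, hD, h⟩ := eventually_deep.1 h
  refine AddMonoidHom.ext fun γ => ?_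
  obtain ⟨γ, rfl⟩ := Additive.ofMul.surjective γ
  obtain ⟨k, hk, hk'⟩ := exists_pow_Dp hD (γ : SL(2, ℤ))
  have h1 := h _ hk'
  have h2 : (γ : SL(2, ℤ)) ^ k ∈ Γ := pow_mem γ.2 k
  rw [ext0_of_mem φ h2, Pi.zero_apply] at h1
  have h3 : (⟨(γ : SL(2, ℤ)) ^ k, h2⟩ : Γ) = γ ^ k := Subtype.ext rfl
  rw [h3, ofMul_pow, map_nsmul] at h1
  exact hO k _ hk h1

end ext0

/-! ### extension of scalars -/

section til

variable {Γ Γ' : Subgroup SL(2, ℤ)} [CommRing O]

/-- the function attached to an element of the lattice -/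
def tilZ (O : Type*) [CommRing O] (Γ : Subgroup SL(2, ℤ)) : KumG.LZ Γ →ₗ[ℤ] (SL(2, ℤ) → O) :=
  AddMonoidHom.toIntLinearMap
    { toFun := fun φ γ => ((ext0 φ.1 γ : ℤ) : O)
      map_zero' := funext fun γ => by
        change ((ext0 (0 : Additive Γ →+ ℤ) γ : ℤ) : O) = 0
        rw [ext0]
        split_ifs <;> simp
      map_add' := fun φ ψ => funext fun γ => by
        change ((ext0 (φ.1 + ψ.1) γ : ℤ) : O) = _
        rw [ext0_add, Pi.add_apply, Int.cast_add]; rfl }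

/-- the function attached to an element of the lattice, with coefficients -/
def til (Γ : Subgroup SL(2, ℤ)) : O ⊗[ℤ] KumG.LZ Γ →ₗ[O] (SL(2, ℤ) → O) :=
  (tilZ O Γ).liftBaseChange O

theorem til_tmul (a : O) (φ : KumG.LZ Γ) (γ : SL(2, ℤ)) :
    til Γ (a ⊗ₜ φ) γ = a * ((ext0 φ.1 γ : ℤ) : O) := by
  rw [til, LinearMap.liftBaseChange_tmul]
  rfl

theorem til_op {ι : Type*} [Fintype ι] {rep : ι → M2} (hF : Fam Γ Γ' rep)
    (hΓ : ∀ᶠ γ in deep, γ ∈ Γ) (hΓ' : ∀ᶠ γ in deep, γ ∈ Γ') (x : O ⊗[ℤ] KumG.LZ Γ) :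
    til Γ' ((opLL hF).baseChange O x) =ᶠ[deep] fun γ => ∑ i, act (til Γ x) (rep i) γ := by
  induction x with
  | zero =>
    refine Eventually.of_forall fun γ => ?_
    rw [map_zero, map_zero, map_zero]
    simp [act]
  | tmul a φ =>
    filter_upwards [ext0_op hF hΓ hΓ' φ.1] with γ h
    rw [LinearMap.baseChange_tmul, til_tmul, opLL_coe, h, Int.cast_sum, Finset.mul_sum]
    exact Finset.sum_congr rfl fun i _ => (til_tmul a φ _).symm
  | add x y hx hy =>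
    filter_upwards [hx, hy] with γ h h'
    rw [map_add, map_add, Pi.add_apply, h, h', ← Finset.sum_add_distrib]
    refine Finset.sum_congr rfl fun i _ => ?_
    rw [act_apply, act_apply, act_apply, map_add, Pi.add_apply]

/-- values on a finite set of generators -/
theorem til_hom (x : O ⊗[ℤ] KumG.LZ Γ) : ∃ Φ : Additive Γ →+ O, ∀ γ : Γ,
    til Γ x γ = Φ (Additive.ofMul γ) := by
  induction x with
  | zero => exact ⟨0, fun γ => by rw [map_zero]; rfl⟩
  | tmul a φ =>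
    refine ⟨(AddMonoidHom.mulLeft a).comp ((Int.castAddHom O).comp φ.1), fun γ => ?_⟩
    rw [til_tmul, ext0_of_mem _ γ.2]
    rfl
  | add x y hx hy =>
    obtain ⟨Φ, hΦ⟩ := hx
    obtain ⟨Ψ, hΨ⟩ := hy
    exact ⟨Φ + Ψ, fun γ => by rw [map_add, Pi.add_apply, hΦ, hΨ]; rfl⟩

/-- elements are determined by their germs -/
theorem eq_zero_of_til [Γ.FiniteIndex] [IsDomain O] [CharZero O] {x : O ⊗[ℤ] KumG.LZ Γ}
    (h : til Γ x =ᶠ[deep] 0) : x = 0 := by
  obtain ⟨Φ, hΦ⟩ := til_hom x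
  have h1 : Φ = 0 := by
    refine eq_zero_of_ext0 (O := O) (fun k a hk ha => ?_) (φ := Φ) ?_
    · rw [nsmul_eq_mul, mul_eq_zero] at ha
      exact ha.resolve_left (Nat.cast_ne_zero.2 hk)
    · filter_upwards [h] with γ hγ
      by_cases hm : γ ∈ Γ
      · rw [ext0_of_mem _ hm, ← hΦ ⟨γ, hm⟩, hγ]
      · rw [ext0, dif_neg hm]; rfl
  have h2 : ∀ γ : Γ, til Γ x γ = 0 := fun γ => by rw [hΦ, h1]; rfl
  -- evaluation at generators
  have hfg : Group.FG Γ := KumG.fg_of_finiteIndex (Γ := Γ)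
  obtain ⟨s, hs⟩ := Group.fg_def.1 hfg
  let ev : KumG.LZ Γ →ₗ[ℤ] (s → ℤ) :=
    { toFun := fun φ γ => φ.1 (Additive.ofMul (γ : Γ))
      map_add' := fun φ ψ => rfl
      map_smul' := fun n φ => rfl }
  have hev : Function.Injective ev := by
    intro φ ψ hφψ
    apply Subtype.ext
    have h3 : (⊤ : Subgroup Γ) ≤
        (AddMonoidHom.toMultiplicativeRight φ.1).eqLocus (AddMonoidHom.toMultiplicativeRight ψ.1) := by
      rw [← hs, Subgroup.closure_le]
      intro γ hγ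
      exact congrFun hφψ ⟨γ, hγ⟩
    refine AddMonoidHom.ext fun γ => ?_
    obtain ⟨γ, rfl⟩ := Additive.ofMul.surjective γ
    exact h3 (Subgroup.mem_top γ)
  have hev' : Function.Injective (ev.lTensor O) :=
    Module.Flat.lTensor_preserves_injective_linearMap _ hev
  apply hev'
  rw [map_zero]
  let e := TensorProduct.piScalarRight ℤ ℤ O s
  apply e.injective
  rw [map_zero]
  have h4 : ∀ (y : O ⊗[ℤ] KumG.LZ Γ) (γ : s), e (ev.lTensor O y) γ = til Γ y ((γ : Γ) : SL(2, ℤ)) := by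
    intro y γ
    induction y with
    | zero => rw [map_zero, map_zero, map_zero]; rfl
    | tmul a φ =>
      rw [LinearMap.lTensor_tmul, TensorProduct.piScalarRight_apply, til_tmul,
        TensorProduct.piScalarRightHom_tmul, ext0_of_mem _ (γ : Γ).2]
      change (ev φ γ : ℤ) • a = _
      rw [zsmul_eq_mul, mul_comm]
      rfl
    | add y y' hy hy' => rw [map_add, map_add, Pi.add_apply, hy, hy', map_add, Pi.add_apply]
  funext γ
  rw [h4, h2]
  rfl

end til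

end

end Fermat.Agent.Twi
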