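import Fermat.Agent.Twi.Main2

/-!
# Twisting: lattices
-/

set_option autoImplicit false
set_option linter.unusedSectionVars false
set_option linter.style.haveILetI false

open Matrix.SpecialLinearGroup Filter
open scoped MatrixGroups TensorProduct
open Fermat.Agent.AL Fermat.Agent.ALCoh Fermat.Agent.TW Fermat.Agent.KumG
open ModularCurve ModularCurve.Period

namespace Fermat.Agent.Twi

noncomputable section

theorem mem_GG_of_Dp {N : ℕ} {γ : SL(2, ℤ)} (h : Dp N γ) : γ ∈ GG N := by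
  rw [mem_Gamma0_iff]
  have := h 1 0
  simpa using this

theorem deep_GG {N : ℕ} (hN : N ≠ 0) : ∀ᶠ γ in deep, γ ∈ GG N :=
  ⟨N, hN, fun _ h => mem_GG_of_Dp h⟩

theorem deep_GH {N : ℕ} (hN : N ≠ 0) (H : Subgroup (ZMod N)ˣ) : ∀ᶠ γ in deep, γ ∈ GH N H := by
  refine ⟨N, hN, fun γ h => ⟨mem_GG_of_Dp h, 1, one_mem _, ?_⟩⟩
  have h1 := h 1 1
  rw [← ZMod.intCast_zmod_eq_zero_iff_dvd, Int.cast_sub, sub_eq_zero] at h1
  rw [Units.val_one]
  simpa using h1.symm

/-- a single matrix -/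
theorem sum_unit_act {O : Type*} [AddCommMonoid O] (f : SL(2, ℤ) → O) (B : M2) (γ : SL(2, ℤ)) :
    ∑ _i : Unit, act f B γ = act f B γ := by simp

section

variable {O : Type*} [CommRing O] {M v : ℕ} [hv : Fact v.Prime] [NeZero (M * v)]
  {ψ : MulChar (ZMod v) O} {H : Subgroup (ZMod (M * v))ˣ} [Fact ((-1 : (ZMod (M * v))ˣ) ∈ H)]

/-- the nebentypus condition in terms of germs -/
theorem dat_of_dia {x : O ⊗[ℤ] KumG.LZ (GH (M * v) H)}
    (hx : ∀ d : (ZMod (M * v))ˣ, (DH (M * v) H d).baseChange O x =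
      ψ (ZMod.castHom (dvd_mul_left v M) (ZMod v) d) ^ 2 • x) :
    Dat M v ψ (til (GH (M * v) H) x) where
  dia a b c d hdet := by
    have hN : M * v ≠ 0 := NeZero.ne _
    let g : SL(2, ℤ) := ⟨!![a, b; (M * v : ℕ) * c, d], by rw [Matrix.det_fin_two_of]; exact hdet⟩
    have hg : g ∈ GG (M * v) := by
      rw [mem_Gamma0_iff]
      exact dvd_mul_right _ _
    obtain ⟨u, hu⟩ := isUnit_dd hg
    have h1 := hx u
    rw [DH_eq hg hu.symm] at h1
    have h2 := til_op (O := O) (fam_diaH H hg) (deep_GH hN H) (deep_GH hN H) x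
    change til (GH (M * v) H) ((opL (fam_diaH H hg)).baseChange O x) =ᶠ[deep] _ at h2
    rw [h1] at h2
    filter_upwards [h2] with γ e
    rw [sum_unit_act, map_smul, Pi.smul_apply, smul_eq_mul] at e
    change act (til (GH (M * v) H) x) (g : M2) γ = _
    rw [← e, hu]
    congr 3
    change ((ZMod.castHom (dvd_mul_left v M) (ZMod v)) ((d : ℤ) : ZMod (M * v))) = _
    rw [map_intCast]

/-- the Hecke relation in terms of germs -/
theorem germ_of_TH {x : O ⊗[ℤ] KumG.LZ (GH (M * v) H)}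
    (hD : Dat M v ψ (til (GH (M * v) H) x)) {l : ℕ} (hl : l.Prime) (hlN : ¬ l ∣ M * v) {lam : O}
    (hx : (TH (M * v) H hl hlN).baseChange O x = lam • x) :
    ∀ᶠ γ in deep, ∑ j : Fin l, act (til (GH (M * v) H) x) !![1, ((j : ℕ) : ℤ); 0, (l : ℤ)] γ +
      ψ (l : ZMod v) ^ 2 * act (til (GH (M * v) H) x) !![(l : ℤ), 0; 0, 1] γ =
        lam * til (GH (M * v) H) x γ := by
  have hN : M * v ≠ 0 := NeZero.ne _
  obtain ⟨g, hg⟩ := exists_adp hl hlN
  rw [TH_eq hl hlN hg] at hx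
  have h2 := til_op (O := O) (fam_rT H hl hlN hg) (deep_GH hN H) (deep_GH hN H) x
  change til (GH (M * v) H) ((opL (fam_rT H hl hlN hg)).baseChange O x) =ᶠ[deep] _ at h2
  rw [hx] at h2
  obtain ⟨c, hc⟩ := dvd_of_mem hg.mem
  have hl0 : (l : ℤ) ≠ 0 := by exact_mod_cast hl.ne_zero
  have hdl : (!![(l : ℤ), 0; 0, 1] : M2).det ≠ 0 := by
    rw [Matrix.det_fin_two_of]; simpa using hl0
  have hdet := g.det_coe
  rw [Matrix.det_fin_two, hc] at hdet
  have h3 := hD.left (a := g 0 0) (b := g 0 1) (c := c) (d := g 1 1) hdet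
    (B₁ := rT l g none) (B₂ := !![(l : ℤ), 0; 0, 1]) (k := 1) (k' := 1) one_ne_zero one_ne_zero
    hdl (by
      rw [one_smul, one_smul, rT_none, ← hc]
      congr 1
      exact Matrix.eta_fin_two _)
  have hgl : ((g 1 1 : ℤ) : ZMod v) = l := by
    have h4 := congrArg (ZMod.castHom (dvd_mul_left v M) (ZMod v)) hg.dd
    rw [map_natCast] at h4
    rw [← h4]
    change _ = ZMod.castHom (dvd_mul_left v M) (ZMod v) ((g 1 1 : ℤ) : ZMod (M * v))
    rw [map_intCast]
  filter_upwards [h2, h3] with γ e e'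
  rw [map_smul, Pi.smul_apply, smul_eq_mul, Fintype.sum_option, e', hgl] at e
  rw [e, add_comm]
  congr 1
  refine Finset.sum_congr rfl fun j _ => ?_
  rw [rT_some]
  rfl

/-! ### the twisting operators -/

variable (M v) in
/-- the group `{±1}` -/
abbrev H1 : Subgroup (ZMod (M * v * v))ˣ := Subgroup.zpowers (-1)

instance : Fact ((-1 : (ZMod (M * v * v))ˣ) ∈ H1 M v) := ⟨Subgroup.mem_zpowers _⟩

theorem mem_zpowers_neg_one {R : Type*} [Monoid R] [HasDistribNeg R] {u : Rˣ}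
    (hu : u ∈ Subgroup.zpowers (-1 : Rˣ)) : u = 1 ∨ u = -1 := by
  obtain ⟨k, rfl⟩ := hu
  rcases Int.even_or_odd k with h | h
  · left; exact h.neg_one_zpow
  · right
    exact h.neg_one_zpow

/-- translations map `Γ_{±1}(M v²)` to `Γ_H(M v)` -/
theorem famA (u : ℤ) : Fam (GH (M * v) H) (GH (M * v * v) (H1 M v)) (fun _ : Unit => al v u) :=
  fam_of_choice (fun _ => det_al_ne u) (fun γ hγ _ => by
    obtain ⟨hγ0, w, hw, hwγ⟩ := hγ
    obtain ⟨c, hc⟩ := dvd_of_mem hγ0
    have hdet := γ.det_coe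
    rw [Matrix.det_fin_two, hc] at hdet
    push_cast at hdet hc
    have hw' : ∃ e : ℤ, (e = 1 ∨ e = -1) ∧ ∃ k : ℤ, γ 1 1 = e + M * v * v * k := by
      rcases mem_zpowers_neg_one hw with h | h
      · refine ⟨1, Or.inl rfl, ?_⟩
        rw [h, Units.val_one] at hwγ
        have h1 : ((γ 1 1 - 1 : ℤ) : ZMod (M * v * v)) = 0 := by push_cast; rw [← hwγ]; ring
        obtain ⟨k, hk⟩ := (ZMod.intCast_zmod_eq_zero_iff_dvd _ _).1 h1
        exact ⟨k, by push_cast at hk; linear_combination hk⟩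
      · refine ⟨-1, Or.inr rfl, ?_⟩
        rw [h, Units.val_neg, Units.val_one] at hwγ
        have h1 : ((γ 1 1 + 1 : ℤ) : ZMod (M * v * v)) = 0 := by push_cast; rw [← hwγ]; ring
        obtain ⟨k, hk⟩ := (ZMod.intCast_zmod_eq_zero_iff_dvd _ _).1 h1
        exact ⟨k, by push_cast at hk; linear_combination hk⟩
    obtain ⟨e, he, k, hk⟩ := hw'
    have he2 : e * e = 1 := by rcases he with h | h <;> rw [h] <;> norm_num
    -- `a ≡ d` modulo `v`
    obtain ⟨t, ht⟩ : ∃ t : ℤ, γ 1 1 - γ 0 0 = v * t := by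
      refine ⟨M * v * k - γ 0 1 * M * v * c * e + e * M * v * k * γ 0 0 , ?_⟩
      have h1 : γ 0 0 * e + γ 0 0 * (M * v * v * k) - γ 0 1 * (M * v * v * c) = 1 := by
        linear_combination hdet - (γ 0 0 : ℤ) * hk
      linear_combination hk + (-e : ℤ) * h1 + (γ 0 0 : ℤ) * he2
    let g' : SL(2, ℤ) := ⟨!![γ 0 0 + u * M * v * c, γ 0 1 + u * t - u ^ 2 * M * c; M * v * v * c,
      γ 1 1 - u * M * v * c], by
        rw [Matrix.det_fin_two_of]
        linear_combination hdet + (u * M * v * c : ℤ) * ht⟩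
    refine ⟨(), ⟨g', ?_, ?_⟩, ?_⟩
    · rw [mem_Gamma0_iff]
      refine ⟨v * c, ?_⟩
      change (M : ℤ) * v * v * c = _
      push_cast; ring
    · refine ⟨if e = 1 then 1 else -1, ?_, ?_⟩
      · split_ifs
        · exact one_mem _
        · exact Fact.out
      · have h5 : (((if e = 1 then 1 else -1 : (ZMod (M * v))ˣ) : ZMod (M * v))) = (e : ZMod (M * v)) := by
          rcases he with h | h
          · rw [if_pos h, h]; simp
          · rw [if_neg (by rw [h]; norm_num), h]; simp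
        rw [h5, ← sub_eq_zero]
        change (e : ZMod (M * v)) - ((γ 1 1 - u * M * v * c : ℤ) : ZMod (M * v)) = 0
        rw [← Int.cast_sub, ZMod.intCast_zmod_eq_zero_iff_dvd]
        refine ⟨u * c - v * k, ?_⟩
        push_cast
        linear_combination -hk
    · change al v u * (γ : M2) = (!![γ 0 0 + u * M * v * c, γ 0 1 + u * t - u ^ 2 * M * c; M * v * v * c,
        γ 1 1 - u * M * v * c] : M2) * al v u
      conv_lhs => rw [Matrix.eta_fin_two (γ : M2)]
      rw [al, Matrix.mul_fin_two, Matrix.mul_fin_two]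
      refine m2_ext ?_ ?_ ?_ ?_
      · linear_combination (u : ℤ) * hc
      · linear_combination (u : ℤ) * ht
      · linear_combination (v : ℤ) * hc
      · ring) (fun _ _ _ _ => rfl)

end

end

end Fermat.Agent.Twi
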