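import Fermat.Agent.Twi.Lift

/-!
# Twisting: the twisted element at level `Γ₀(v² M r)`
-/

set_option autoImplicit false
set_option linter.unusedSectionVars false
set_option linter.style.haveILetI false

open Matrix.SpecialLinearGroup Filter
open scoped MatrixGroups TensorProduct
open Fermat.Agent.AL Fermat.Agent.ALCoh Fermat.Agent.TW Fermat.Agent.KumG
open ModularCurve ModularCurve.Period

namespace Fermat.Agent.Twi

noncomputable section

variable {O : Type*} [CommRing O] {M v : ℕ} [hv : Fact v.Prime] [NeZero (M * v)]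
  {ψ : MulChar (ZMod v) O} {H : Subgroup (ZMod (M * v))ˣ} [Fact ((-1 : (ZMod (M * v))ˣ) ∈ H)]

include hv in
theorem neZero_Mvv : NeZero (M * v * v) := ⟨mul_ne_zero (NeZero.ne _) hv.out.ne_zero⟩

variable (ψ) in
/-- the twisting operator -/
def R (x : O ⊗[ℤ] KumG.LZ (GH (M * v) H)) : O ⊗[ℤ] KumG.LZ (GH (M * v * v) (H1 M v)) :=
  ∑ u : ZMod v, ψ u • (opLL (famA (H := H) (u.val : ℤ))).baseChange O x

theorem til_R (x : O ⊗[ℤ] KumG.LZ (GH (M * v) H)) :
    til _ (R ψ x) =ᶠ[deep] Y v ψ (til _ x) := by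
  have h1 : ∀ᶠ γ in deep, ∀ u : ZMod v,
      til _ ((opLL (famA (H := H) (u.val : ℤ))).baseChange O x) γ =
        act (til _ x) (al v (u.val : ℤ)) γ := by
    rw [Filter.eventually_all]
    intro u
    filter_upwards [til_op (O := O) (famA (H := H) (u.val : ℤ)) (deep_GH (NeZero.ne _) H)
      (deep_GH (mul_ne_zero (NeZero.ne _) hv.out.ne_zero) _) x] with γ e
    rw [e, sum_unit_act]
  filter_upwards [h1] with γ e
  rw [R, map_sum, Finset.sum_apply, Y]
  refine Finset.sum_congr rfl fun u _ => ?_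
  rw [map_smul, Pi.smul_apply, smul_eq_mul, e u]
  rfl

/-- the constant -/
def cD (M v : ℕ) [NeZero (M * v * v)] : ℕ := Fintype.card (DG (M * v * v) (H1 M v))

theorem cD_ne_zero [NeZero (M * v * v)] : cD M v ≠ 0 := Fintype.card_ne_zero

variable (ψ) in
/-- the twisted element of level `Γ₀(M v²)` -/
def xi0 [NeZero (M * v * v)] (x : O ⊗[ℤ] KumG.LZ (GH (M * v) H)) :
    O ⊗[ℤ] KumG.LZ (GG (M * v * v)) := (trH (M * v * v) (H1 M v)).baseChange O (R ψ x)

theorem til_xi0 [NeZero (M * v * v)] {x : O ⊗[ℤ] KumG.LZ (GH (M * v) H)}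
    (hD : Dat M v ψ (til _ x)) :
    til _ (xi0 ψ x) =ᶠ[deep] fun γ => (cD M v : O) * Y v ψ (til _ x) γ := by
  have h1 : ∀ᶠ γ in deep, ∀ δ : DG (M * v * v) (H1 M v),
      act (til _ (R ψ x)) (rD δ : M2) γ = Y v ψ (til _ x) γ := by
    rw [Filter.eventually_all]
    intro δ
    have hdet : ((rD δ : SL(2, ℤ)) : M2).det ≠ 0 := by
      rw [(rD δ).det_coe]; exact one_ne_zero
    refine (act_congr (til_R x) hdet).trans ?_
    obtain ⟨c, hc⟩ := dvd_of_mem (rD_mem δ)
    have h2 := (rD δ).det_coe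
    rw [Matrix.det_fin_two, hc] at h2
    push_cast at h2 hc
    have h3 := hD.Y_inv (a := (rD δ : M2) 0 0) (b := (rD δ : M2) 0 1) (c := c)
      (d := (rD δ : M2) 1 1) h2
    rw [← hc] at h3
    rwa [← Matrix.eta_fin_two ((rD δ : SL(2, ℤ)) : M2)] at h3
  filter_upwards [h1, til_op (O := O) (famTrH (N := M * v * v) (H := H1 M v))
    (deep_GH (NeZero.ne _) _) (deep_GG (NeZero.ne _)) (R ψ x)] with γ e1 e2
  change til _ ((trH (M * v * v) (H1 M v)).baseChange O (R ψ x)) γ = _ at e2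
  rw [xi0, e2, Finset.sum_congr rfl fun δ _ => e1 δ, Finset.sum_const, Finset.card_univ, nsmul_eq_mul]
  rfl

section final

variable {r : ℕ} [NeZero (v * M * r)] [NeZero (v * M * r * v)] [NeZero (M * v * v)]

theorem dvd_lvl : M * v * v ∣ v * M * r * v := ⟨r, by ring⟩

variable (ψ r) in
/-- the twisted element of level `Γ₀(v² M r)` -/
def xi (x : O ⊗[ℤ] KumG.LZ (GH (M * v) H)) : O ⊗[ℤ] KumG.LZ (GG (v * M * r * v)) :=
  (opLL (famRes (dvd_lvl (M := M) (v := v) (r := r)))).baseChange O (xi0 ψ x)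

theorem til_xi {x : O ⊗[ℤ] KumG.LZ (GH (M * v) H)} (hD : Dat M v ψ (til _ x)) :
    til _ (xi ψ r x) =ᶠ[deep] fun γ => (cD M v : O) * Y v ψ (til _ x) γ := by
  filter_upwards [til_op (O := O) (famRes (dvd_lvl (M := M) (v := v) (r := r)))
    (deep_GG (NeZero.ne _)) (deep_GG (NeZero.ne _)) (xi0 ψ x), til_xi0 hD] with γ e1 e2
  rw [xi, e1, sum_unit_act, act_one, e2]

variable [IsDomain O] [CharZero O]

/-- **the twist is injective** -/
theorem eq_zero_of_xi [(GH (M * v) H).FiniteIndex] (hψ : ψ ≠ 1) (hM : ¬ v ∣ M) {t : ZMod v}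
    (ht : ψ t ^ 2 ≠ 1) (ht0 : t ≠ 0)
    {x : O ⊗[ℤ] KumG.LZ (GH (M * v) H)} (hD : Dat M v ψ (til _ x)) (h : xi ψ r x = 0) : x = 0 := by
  apply eq_zero_of_til
  refine hD.eq_zero hψ hM ht ht0 ?_
  filter_upwards [til_xi (r := r) hD] with γ e
  rw [h, map_zero, Pi.zero_apply, eq_comm, mul_eq_zero] at e
  exact e.resolve_left (Nat.cast_ne_zero.2 cD_ne_zero)

/-- **Hecke operators on the twist** -/
theorem TG_xi {x : O ⊗[ℤ] KumG.LZ (GH (M * v) H)} (hD : Dat M v ψ (til _ x)) {l : ℕ}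
    (hl : l.Prime) (hlN : ¬ l ∣ M * v) (hlN' : ¬ l ∣ v * M * r * v) {lam lam' : O}
    (hlam : lam = ψ (l : ZMod v) * lam')
    (hx : (TH (M * v) H hl hlN).baseChange O x = lam • x) :
    (TG hl hlN').baseChange O (xi ψ r x) = lam' • xi ψ r x := by
  have hlv : l ≠ v := by
    rintro rfl
    exact hlN (dvd_mul_left _ _)
  have hlv' : (l : ZMod v) ≠ 0 := fun h0 => by
    rw [ZMod.natCast_eq_zero_iff] at h0
    exact hlv ((Nat.prime_dvd_prime_iff_eq hv.out hl).1 h0).symm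
  have hψl : ψ (l : ZMod v) ≠ 0 := ((IsUnit.mk0 _ hlv').map ψ).ne_zero
  haveI : (GG (v * M * r * v)).FiniteIndex := inferInstance
  rw [← sub_eq_zero]
  apply eq_zero_of_til
  have h1 := hD.Y_hecke hl hlv (germ_of_TH hD hl hlN hx)
  have h2 := til_op (O := O) (famT (N := v * M * r * v) hl hlN') (deep_GG (NeZero.ne _))
    (deep_GG (NeZero.ne _)) (xi ψ r x)
  have h3 : ∀ᶠ γ in deep, ∀ i : Option (Fin l), act (til _ (xi ψ r x)) (dl l i) γ =
      (cD M v : O) * act (Y v ψ (til _ x)) (dl l i) γ := by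
    rw [Filter.eventually_all]
    intro i
    exact act_congr (til_xi hD) (by rw [det_dl]; exact_mod_cast hl.ne_zero)
  filter_upwards [h1, h2, h3, til_xi (r := r) hD] with γ e1 e2 e3 e4
  change til _ ((TG hl hlN').baseChange O (xi ψ r x)) γ = _ at e2
  rw [map_sub, Pi.sub_apply, e2, map_smul, Pi.smul_apply, smul_eq_mul, e4, Fintype.sum_option, e3]
  simp only [e3]
  rw [← Finset.mul_sum]
  rw [hlam] at e1
  have e5 : ψ (l : ZMod v) * ((∑ j : Fin l, act (Y v ψ (til _ x)) (dl l (some j)) γ +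
      act (Y v ψ (til _ x)) (dl l none) γ) - lam' * Y v ψ (til _ x) γ) = 0 := by
    have e6 : ψ (l : ZMod v) * (∑ j : Fin l, act (Y v ψ (til _ x)) (dl l (some j)) γ +
      act (Y v ψ (til _ x)) (dl l none) γ) = ψ (l : ZMod v) * lam' * Y v ψ (til _ x) γ := e1
    linear_combination e6
  have e7 := (mul_eq_zero.1 e5).resolve_left hψl
  rw [Pi.zero_apply]
  linear_combination (cD M v : O) * e7

omit [IsDomain O] [CharZero O] [NeZero (v * M * r)] [NeZero (v * M * r * v)] [NeZero (M * v * v)] hv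
  [NeZero (M * v)] in
theorem sum_fin_eq [NeZero v] (F : ℕ → O) : ∑ j : Fin v, F j = ∑ x : ZMod v, F x.val := by
  obtain ⟨n, rfl⟩ := Nat.exists_eq_succ_of_ne_zero (NeZero.ne v)
  rfl

/-- the trace, with explicit representatives -/
theorem isReps_v : IsReps (v * M * r * v) (v * M * r)
    (fun j : Fin v => lowU ((j : ℕ) * (v * M * r : ℕ))) :=
  isReps_low hv.out (NeZero.ne _) ⟨M * r, by ring⟩

/-- the trace on lattices -/
def trL (M v r : ℕ) [NeZero (v * M * r * v)] :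
    KumG.LZ (GG (v * M * r * v)) →ₗ[ℤ] KumG.LZ (GG (v * M * r)) :=
  opLL (famTr (exists_isReps (dvd_mul_right (v * M * r) v)).choose_spec.choose_spec)

theorem trL_coe (φ : KumG.LZ (GG (v * M * r * v))) :
    (trL M v r φ).1 = tr (dvd_mul_right (v * M * r) v) ℤ φ.1 := rfl

theorem trL_eq : trL M v r = opLL (famTr (isReps_v (M := M) (v := v) (r := r))) := by
  refine LinearMap.ext fun φ => Subtype.ext ?_
  rw [trL_coe, tr_eq _ (isReps_v (M := M) (v := v) (r := r))]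
  rfl

theorem coe_lowU_eq (j : ℕ) : ((lowU (j * (v * M * r : ℕ)) : SL(2, ℤ)) : M2) =
    Rm (M * r) v (j : ℤ) := by
  rw [coe_lowU, Rm]
  exact m2_ext rfl rfl (by push_cast; ring) rfl

theorem til_trL (y : O ⊗[ℤ] KumG.LZ (GG (v * M * r * v))) :
    til _ ((trL M v r).baseChange O y) =ᶠ[deep]
      fun γ => ∑ c : ZMod v, act (til _ y) (Rm (M * r) v (c.val : ℤ)) γ := by
  haveI := neZero_v (v := v)
  rw [trL_eq]
  filter_upwards [til_op (O := O) (famTr (isReps_v (M := M) (v := v) (r := r)))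
    (deep_GG (NeZero.ne _)) (deep_GG (NeZero.ne _)) y] with γ e
  rw [e, ← sum_fin_eq (fun c => act (til _ y) (Rm (M * r) v (c : ℤ)) γ)]
  refine Finset.sum_congr rfl fun j _ => ?_
  rw [coe_lowU_eq]

/-- **the first trace vanishes** -/
theorem trL_xi (hψ : ψ ≠ 1) (hM : ¬ v ∣ M * r) {x : O ⊗[ℤ] KumG.LZ (GH (M * v) H)}
    (hD : Dat M v ψ (til _ x)) : (trL M v r).baseChange O (xi ψ r x) = 0 := by
  apply eq_zero_of_til
  have h1 : ∀ᶠ γ in deep, ∀ c : ZMod v, act (til _ (xi ψ r x)) (Rm (M * r) v (c.val : ℤ)) γ =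
      (cD M v : O) * act (Y v ψ (til _ x)) (Rm (M * r) v (c.val : ℤ)) γ := by
    haveI := neZero_v (v := v)
    rw [Filter.eventually_all]
    intro c
    exact act_congr (til_xi hD) (det_Rm_ne _)
  filter_upwards [h1, til_trL (xi ψ r x), hD.Y_trace hψ hM] with γ e1 e2 e3
  rw [e2]
  simp only [e1]
  rw [← Finset.mul_sum, e3, mul_zero, Pi.zero_apply]

/-! ### the Atkin–Lehner operator -/

omit [IsDomain O] [CharZero O] [NeZero (v * M * r)] [NeZero (v * M * r * v)] [NeZero (M * v * v)] hv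
  [NeZero (M * v)] in
theorem dvd_sq : v ^ 2 ∣ v * M * r * v := ⟨M * r, by ring⟩

variable (M v r) in
/-- the Atkin–Lehner operator on lattices -/
def wL (hco : (v ^ 2).Coprime (v * M * r * v / v ^ 2)) :
    KumG.LZ (GG (v * M * r * v)) →ₗ[ℤ] KumG.LZ (GG (v * M * r * v)) :=
  opLL (famW (dvd_sq (M := M) (v := v) (r := r))
    (ne_zero_of_dvd (dvd_sq (M := M) (v := v) (r := r)))
    (wMat_mem (dvd_sq (M := M) (v := v) (r := r)) hco))

theorem wL_coe (hco : (v ^ 2).Coprime (v * M * r * v / v ^ 2))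
    (φ : KumG.LZ (GG (v * M * r * v))) :
    (wL M v r hco φ).1 = wop (dvd_sq (M := M) (v := v) (r := r)) hco ℤ φ.1 := rfl

/-- **the second trace vanishes** -/
theorem trL_wL_xi (hco : (v ^ 2).Coprime (v * M * r * v / v ^ 2)) (hψ : ψ ≠ 1)
    (hM : ¬ v ∣ M * r) {x : O ⊗[ℤ] KumG.LZ (GH (M * v) H)}
    (hD : Dat M v ψ (til _ x)) :
    (trL M v r).baseChange O ((wL M v r hco).baseChange O (xi ψ r x)) = 0 := by
  haveI := neZero_v (v := v)
  have hv0 : (v : ℤ) ≠ 0 := by exact_mod_cast hv.out.ne_zero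
  apply eq_zero_of_til
  obtain ⟨h1, ⟨a, ha⟩, ⟨c, hc⟩, ⟨d, hd⟩⟩ := wMat_mem (dvd_sq (M := M) (v := v) (r := r)) hco
  set B := wMat (dvd_sq (M := M) (v := v) (r := r)) hco with hB
  rw [Matrix.det_fin_two, ha, hc, hd] at h1
  push_cast at ha hc hd h1
  have hdet : (v : ℤ) ^ 2 * a * d - B 0 1 * (M * r * c) = 1 :=
    mul_left_cancel₀ (pow_ne_zero 2 hv0) (by linear_combination h1)
  have hBW : B = Wm M v r a (B 0 1) c d := by
    conv_lhs => rw [Matrix.eta_fin_two B]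
    rw [Wm]
    exact m2_ext ha rfl (by rw [hc]; ring) hd
  have hBdet : B.det ≠ 0 := by rw [hBW]; exact det_Wm_ne hdet
  have e0 : til _ ((wL M v r hco).baseChange O (xi ψ r x)) =ᶠ[deep]
      fun γ => (cD M v : O) * act (Y v ψ (til _ x)) B γ := by
    filter_upwards [til_op (O := O) (famW (dvd_sq (M := M) (v := v) (r := r))
      (ne_zero_of_dvd (dvd_sq (M := M) (v := v) (r := r)))
      (wMat_mem (dvd_sq (M := M) (v := v) (r := r)) hco)) (deep_GG (NeZero.ne _))
      (deep_GG (NeZero.ne _)) (xi ψ r x), act_congr (til_xi (r := r) hD) hBdet] with γ e1 e2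
    change til _ ((wL M v r hco).baseChange O (xi ψ r x)) γ = _ at e1
    rw [e1, sum_unit_act]
    exact e2
  have h1 : ∀ᶠ γ in deep, ∀ c : ZMod v,
      act (til _ ((wL M v r hco).baseChange O (xi ψ r x))) (Rm (M * r) v (c.val : ℤ)) γ =
      (cD M v : O) * act (act (Y v ψ (til _ x)) B) (Rm (M * r) v (c.val : ℤ)) γ := by
    rw [Filter.eventually_all]
    intro c
    exact act_congr e0 (det_Rm_ne _)
  have h3 := hD.Y_traceW hψ hM hdet
  rw [← hBW] at h3
  filter_upwards [h1, til_trL ((wL M v r hco).baseChange O (xi ψ r x)), h3] with γ e1 e2 e3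
  rw [e2]
  simp only [e1]
  rw [← Finset.mul_sum, e3, mul_zero, Pi.zero_apply]

end final

end

end Fermat.Agent.Twi
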