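import Fermat.Agent.Twi.Alg

/-!
# Twisting: the main germ level identities
-/

set_option autoImplicit false
set_option linter.unusedSectionVars false
set_option linter.style.haveILetI false

open Matrix.SpecialLinearGroup Filter
open scoped MatrixGroups TensorProduct
open Fermat.Agent.AL Fermat.Agent.ALCoh Fermat.Agent.TW
open ModularCurve ModularCurve.Period

namespace Fermat.Agent.Twi

noncomputable section

variable {O : Type*} [CommRing O] {M v : ℕ} [hv : Fact v.Prime] {ψ : MulChar (ZMod v) O}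
  {X : SL(2, ℤ) → O}

theorem m2_ext {a b c d a' b' c' d' : ℤ} (h1 : a = a') (h2 : b = b') (h3 : c = c')
    (h4 : d = d') : (!![a, b; c, d] : M2) = !![a', b'; c', d'] := by
  rw [h1, h2, h3, h4]

/-- the product of two translations -/
theorem al_mul (u w : ℤ) : al v u * al v w = (v : ℤ) • al v (u + w) := by
  rw [al, al, al, Matrix.mul_fin_two, Matrix.smul_of]
  simp only [Matrix.smul_cons, Matrix.smul_empty, smul_eq_mul]
  exact m2_ext (by ring) (by ring) (by ring) (by ring)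

/-- unipotent matrices -/
def Rm (M v : ℕ) (c : ℤ) : M2 := !![1, 0; (M * v : ℕ) * c, 1]

theorem det_Rm (c : ℤ) : (Rm M v c).det = 1 := by rw [Rm, Matrix.det_fin_two_of]; ring

theorem det_Rm_ne (c : ℤ) : (Rm M v c).det ≠ 0 := by rw [det_Rm]; exact one_ne_zero

theorem inv_mul {A B : M2} (hA : A.det ≠ 0) (hB : B.det ≠ 0) (h : act X A =ᶠ[deep] X) :
    act X (A * B) =ᶠ[deep] act X B :=
  (act_mul X hA hB).trans (act_congr h hB)

theorem Dat.act_Rm (h : Dat M v ψ X) (c : ℤ) : act X (Rm M v c) =ᶠ[deep] X := by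
  refine (h.dia 1 0 c 1 (by ring)).trans (Eventually.of_forall fun γ => ?_)
  change ψ ((1 : ℤ) : ZMod v) ^ 2 * X γ = X γ
  rw [Int.cast_one, map_one, one_pow, one_mul]

theorem exists_eq_mul {x y : ℤ} (h : (x : ZMod v) = y) : ∃ k : ℤ, x - y = v * k := by
  rwa [← sub_eq_zero, ← Int.cast_sub, ZMod.intCast_zmod_eq_zero_iff_dvd] at h

section inj

variable [IsDomain O] [CharZero O]

/-- if the twist vanishes, then all translates are equal -/
theorem Dat.G_eq_of_Y (h : Dat M v ψ X) (hψ : ψ ≠ 1) (hY : Y v ψ X =ᶠ[deep] 0) (u : ℤ) :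
    act X (al v u) =ᶠ[deep] X := by
  haveI : NeZero v := ⟨hv.out.ne_zero⟩
  have h1 : ∀ᶠ γ in deep, ∀ b : ZMod v, ∑ u : ZMod v, ψ u * G v X (u + b) γ = 0 := by
    rw [Filter.eventually_all]
    intro b
    have h2 : act (Y v ψ X) (al v (b.val : ℤ)) =ᶠ[deep] act 0 (al v (b.val : ℤ)) :=
      act_congr hY (det_al_ne (v := v) _)
    have h3 : ∀ᶠ γ in deep, ∀ u : ZMod v, act X (al v (u.val : ℤ) * al v (b.val : ℤ)) γ =
        G v X (u + b) γ := by
      rw [Filter.eventually_all]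
      intro u
      rw [al_mul, act_smul (by exact_mod_cast hv.out.ne_zero)]
      refine (h.G_eq _).trans (Eventually.of_forall fun γ => ?_)
      push_cast
      rw [ZMod.natCast_zmod_val, ZMod.natCast_zmod_val]
    filter_upwards [h2, h3, act_Y (ψ := ψ) (X := X) (v := v) (det_al_ne (v := v) (b.val : ℤ))] with γ e1 e2 e3
    rw [e3] at e1
    simp only [e2] at e1
    exact e1
  refine (h.G_eq u).trans ?_
  filter_upwards [h1] with γ e
  have hc := const_of_conv hψ (fun u => G v X u γ) e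
  have h4 : (v : O) * G v X (u : ZMod v) γ = (v : O) * G v X 0 γ := by rw [hc, hc]
  have h5 := mul_left_cancel₀ (Nat.cast_ne_zero.2 hv.out.ne_zero) h4
  rw [h5, G, ZMod.val_zero, Nat.cast_zero, act_al_zero]

/-- **injectivity of the twist** -/
theorem Dat.eq_zero (h : Dat M v ψ X) (hψ : ψ ≠ 1) (hM : ¬ v ∣ M) {t : ZMod v}
    (ht : ψ t ^ 2 ≠ 1) (ht0 : t ≠ 0) (hY : Y v ψ X =ᶠ[deep] 0) : X =ᶠ[deep] 0 := by
  haveI : NeZero v := ⟨hv.out.ne_zero⟩
  have hMv : (M : ZMod v) ≠ 0 := fun h0 => hM ((ZMod.natCast_eq_zero_iff M v).1 h0)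
  have hG := fun u => h.G_eq_of_Y hψ hY u
  set T : ℤ := (t.val : ℤ) with hT
  have hTt : (T : ZMod v) = t := by rw [hT]; push_cast; exact ZMod.natCast_zmod_val t
  obtain ⟨c, hc⟩ : ∃ c : ℤ, ((1 + T * M * c : ℤ) : ZMod v) = ((0 : ℤ) : ZMod v) := by
    refine ⟨((-(t * M)⁻¹ : ZMod v).val : ℤ), ?_⟩
    push_cast
    rw [ZMod.natCast_zmod_val, hTt]
    field_simp
    ring
  obtain ⟨c', hc'⟩ : ∃ c' : ℤ, ((M * c' : ℤ) : ZMod v) = ((1 : ℤ) : ZMod v) := by
    refine ⟨(((M : ZMod v)⁻¹).val : ℤ), ?_⟩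
    push_cast
    rw [ZMod.natCast_zmod_val, mul_inv_cancel₀ hMv]
  obtain ⟨k, hk⟩ := exists_eq_mul hc
  obtain ⟨k', hk'⟩ := exists_eq_mul hc'
  have h1 : act X (al v T * (Rm M v c * (al v (T - 1) * (Rm M v c' * al v (-1))))) =ᶠ[deep] X := by
    have d1 := det_al_ne (v := v)
    have d2 := det_Rm_ne (M := M) (v := v)
    have d3 : ∀ {A B : M2}, A.det ≠ 0 → B.det ≠ 0 → (A * B).det ≠ 0 := fun hA hB => by
      rw [Matrix.det_mul]; exact mul_ne_zero hA hB
    refine (inv_mul (d1 _) (d3 (d2 _) (d3 (d1 _) (d3 (d2 _) (d1 _)))) (hG _)).trans ?_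
    refine (inv_mul (d2 _) (d3 (d1 _) (d3 (d2 _) (d1 _))) (h.act_Rm _)).trans ?_
    refine (inv_mul (d1 _) (d3 (d2 _) (d1 _)) (hG _)).trans ?_
    exact (inv_mul (d2 _) (d1 _) (h.act_Rm _)).trans (hG _)
  set d : ℤ := M * c * (T - 1) + 1 - (M * c + (M * c * (T - 1) + 1) * (M * c')) with hd
  have hq : (v : ℤ) * (-k - (v * k * (T - 1) + T) * k') =
      -(1 + T * (M * c)) - ((1 + T * (M * c)) * (T - 1) + T) * (M * c' - 1) := by
    have ek : (v : ℤ) * k = 1 + T * (M * c) := by linear_combination -hk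
    have ek' : (v : ℤ) * k' = M * c' - 1 := by linear_combination -hk'
    calc (v : ℤ) * (-k - (v * k * (T - 1) + T) * k')
        = -(v * k) - (v * k * (T - 1) + T) * (v * k') := by ring
      _ = _ := by rw [ek, ek']
  have h2 := h.left (a := 1 + T * (M * c) + ((1 + T * (M * c)) * (T - 1) + T) * (M * c'))
    (b := -k - (v * k * (T - 1) + T) * k') (c := c + (M * c * (T - 1) + 1) * c') (d := d)
    (B₁ := al v T * (Rm M v c * (al v (T - 1) * (Rm M v c' * al v (-1))))) (B₂ := 1)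
    (k := 1) (k' := v ^ 3) ?_ one_ne_zero (pow_ne_zero 3 (by exact_mod_cast hv.out.ne_zero))
    (by rw [Matrix.det_one]; exact one_ne_zero) ?_
  · rw [act_one] at h2
    have hdt : (d : ZMod v) * t = 1 := by
      have e1 := congrArg (Int.cast : ℤ → ZMod v) hk
      have e2 := congrArg (Int.cast : ℤ → ZMod v) hk'
      rw [hd]
      push_cast [hTt] at e1 e2 ⊢
      have e3 : (v : ZMod v) = 0 := ZMod.natCast_self v
      rw [e3, zero_mul] at e1 e2
      have e4 : (M : ZMod v) * c' = 1 := by linear_combination e2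
      have e5 : t * M * c = -1 := by linear_combination e1
      rw [e4]
      linear_combination -e5
    filter_upwards [h1, h2] with γ e1 e2
    rw [e1] at e2
    have e3 : ψ t * ψ (d : ZMod v) = 1 := by rw [← map_mul, mul_comm t, hdt, map_one]
    have e4 : (ψ t ^ 2 - 1) * X γ = 0 := by
      have e5 : ψ t ^ 2 * X γ = (ψ t * ψ (d : ZMod v)) ^ 2 * X γ := by
        conv_lhs => rw [e2]
        ring
      rw [sub_mul, one_mul, e5, e3, one_pow, one_mul, sub_self]
    exact (mul_eq_zero.1 e4).resolve_left (sub_ne_zero.2 ht)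
  · rw [hd]
    push_cast
    linear_combination -(M * (c + (M * c * (T - 1) + 1) * c') : ℤ) * hq
  · rw [one_smul, Matrix.mul_one, al, al, al, Rm, Rm, Matrix.mul_fin_two, Matrix.mul_fin_two,
      Matrix.mul_fin_two, Matrix.mul_fin_two, Matrix.smul_of]
    simp only [Matrix.smul_cons, Matrix.smul_empty, smul_eq_mul]
    refine m2_ext ?_ ?_ ?_ ?_
    · push_cast; ring
    · push_cast; linear_combination -(v : ℤ) ^ 2 * hq
    · push_cast; ring
    · rw [hd]; push_cast; ring

end inj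

end

end Fermat.Agent.Twi
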