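import Fermat.Agent.Twi.Main

/-!
# Twisting: invariance, Hecke operators, traces
-/

set_option autoImplicit false
set_option linter.unusedSectionVars false
set_option linter.style.haveILetI false

open Matrix.SpecialLinearGroup Filter
open scoped MatrixGroups TensorProduct
open Fermat.Agent.AL Fermat.Agent.ALCoh Fermat.Agent.TW
open ModularCurve ModularCurve.Period

namespace Fermat.Agent.Twi

noncomputable section

variable {O : Type*} [CommRing O] {M v : ℕ} [hv : Fact v.Prime] {ψ : MulChar (ZMod v) O}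
  {X : SL(2, ℤ) → O}

include hv in
theorem neZero_v : NeZero v := ⟨hv.out.ne_zero⟩

/-- **invariance of the twist** -/
theorem Dat.Y_inv (h : Dat M v ψ X) {a b c d : ℤ} (hdet : a * d - b * (M * v * v * c) = 1) :
    act (Y v ψ X) !![a, b; M * v * v * c, d] =ᶠ[deep] Y v ψ X := by
  haveI := neZero_v (v := v)
  have hg : (!![a, b; M * v * v * c, d] : M2).det ≠ 0 := by
    rw [Matrix.det_fin_two_of, hdet]; exact one_ne_zero
  refine (act_Y hg).trans ?_
  have hd : (a : ZMod v) * d = 1 := by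
    have e1 := congrArg (Int.cast : ℤ → ZMod v) hdet
    push_cast at e1
    rw [ZMod.natCast_self v] at e1
    linear_combination e1
  have hd0 : (d : ZMod v) ≠ 0 := fun h0 => by rw [h0, mul_zero] at hd; exact zero_ne_one hd
  have h1 : ∀ᶠ γ in deep, ∀ u : ZMod v,
      act X (al v (u.val : ℤ) * !![a, b; M * v * v * c, d]) γ =
        ψ (d : ZMod v) ^ 2 * G v X (u * (d : ZMod v) ^ 2) γ := by
    rw [Filter.eventually_all]
    intro u
    set U : ℤ := (u.val : ℤ) with hU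
    have hUu : (U : ZMod v) = u := by rw [hU]; push_cast; exact ZMod.natCast_zmod_val u
    have h2 := h.left (a := a + U * M * v * c) (b := b - U ^ 2 * d ^ 2 * M * c - U * d * b * M * v * c)
      (c := v * c) (d := d - U * d ^ 2 * M * v * c) (B₁ := al v U * !![a, b; M * v * v * c, d])
      (B₂ := al v (U * d ^ 2)) (k := 1) (k' := 1) ?_ one_ne_zero one_ne_zero (det_al_ne _) ?_
    · filter_upwards [h2, h.G_eq (U * d ^ 2)] with γ e1 e2
      rw [e1, e2]
      push_cast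
      rw [hUu, ZMod.natCast_self v]
      congr 3
      ring
    · push_cast
      linear_combination (1 - U * d * M * v * c) * hdet
    · rw [one_smul, one_smul, al, al, Matrix.mul_fin_two, Matrix.mul_fin_two]
      refine m2_ext ?_ ?_ ?_ ?_
      · ring
      · linear_combination -(U * d) * hdet
      · push_cast; ring
      · push_cast; ring
  filter_upwards [h1] with γ e
  simp only [e]
  rw [Y]
  have hd2 : (d : ZMod v) ^ 2 ≠ 0 := pow_ne_zero 2 hd0
  rw [← Equiv.sum_comp (Equiv.mulRight₀ ((d : ZMod v) ^ 2) hd2) (fun u => ψ u * G v X u γ)]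
  refine Finset.sum_congr rfl fun u _ => ?_
  rw [Equiv.mulRight₀_apply, map_mul, map_pow]
  ring

/-- **Hecke operators on the twist** -/
theorem Dat.Y_hecke (h : Dat M v ψ X) {l : ℕ} (hl : l.Prime) (hlv : l ≠ v) {lam : O}
    (hX : ∀ᶠ γ in deep, ∑ j : Fin l, act X !![1, ((j : ℕ) : ℤ); 0, (l : ℤ)] γ +
      ψ (l : ZMod v) ^ 2 * act X !![(l : ℤ), 0; 0, 1] γ = lam * X γ) :
    ∀ᶠ γ in deep, ψ (l : ZMod v) * (∑ j : Fin l, act (Y v ψ X) !![1, ((j : ℕ) : ℤ); 0, (l : ℤ)] γ +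
      act (Y v ψ X) !![(l : ℤ), 0; 0, 1] γ) = lam * Y v ψ X γ := by
  haveI := neZero_v (v := v)
  have hl0 : (l : ℤ) ≠ 0 := by exact_mod_cast hl.ne_zero
  have hdj : ∀ j : Fin l, (!![1, ((j : ℕ) : ℤ); 0, (l : ℤ)] : M2).det ≠ 0 := fun j => by
    rw [Matrix.det_fin_two_of]; simpa using hl0
  have hdl : (!![(l : ℤ), 0; 0, 1] : M2).det ≠ 0 := by
    rw [Matrix.det_fin_two_of]; simpa using hl0
  have hlv' : (l : ZMod v) ≠ 0 := fun h0 => by
    rw [ZMod.natCast_eq_zero_iff] at h0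
    exact hlv ((Nat.prime_dvd_prime_iff_eq hv.out hl).1 h0).symm
  -- translate of the relation
  have h1 : ∀ᶠ γ in deep, ∀ u : ZMod v,
      ∑ j : Fin l, act (act X !![1, ((j : ℕ) : ℤ); 0, (l : ℤ)]) (al v (l * (u.val : ℤ))) γ +
      ψ (l : ZMod v) ^ 2 * act (act X !![(l : ℤ), 0; 0, 1]) (al v (l * (u.val : ℤ))) γ =
        lam * G v X (l * u) γ := by
    rw [Filter.eventually_all]
    intro u
    have h2 := (tendsto_cj (det_al_ne (v := v) (l * (u.val : ℤ)))).eventually hX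
    filter_upwards [h2, h.G_eq (l * (u.val : ℤ))] with γ e1 e2
    rw [act_apply] at e2
    have e3 : G v X (((l * (u.val : ℤ) : ℤ)) : ZMod v) γ = G v X (l * u) γ := by
      push_cast
      rw [ZMod.natCast_zmod_val]
    rw [← e3, ← e2, ← e1]
    rfl
  have h3 : ∀ᶠ γ in deep, ∀ (j : Fin l) (u : ZMod v),
      act X (al v (u.val : ℤ) * !![1, ((j : ℕ) : ℤ); 0, (l : ℤ)]) γ =
        act (act X !![1, ((j : ℕ) : ℤ); 0, (l : ℤ)]) (al v (l * (u.val : ℤ))) γ := by
    rw [Filter.eventually_all]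
    intro j
    rw [Filter.eventually_all]
    intro u
    have e : al v (u.val : ℤ) * !![1, ((j : ℕ) : ℤ); 0, (l : ℤ)] =
        !![1, ((j : ℕ) : ℤ); 0, (l : ℤ)] * al v (l * (u.val : ℤ)) := by
      rw [al, al, Matrix.mul_fin_two, Matrix.mul_fin_two]
      exact m2_ext (by ring) (by ring) (by ring) (by ring)
    rw [e]
    exact act_mul X (hdj j) (det_al_ne _)
  have h4 : ∀ᶠ γ in deep, ∀ u : ZMod v,
      act X (al v (((l : ZMod v) ^ 2 * u).val : ℤ) * !![(l : ℤ), 0; 0, 1]) γ =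
        act (act X !![(l : ℤ), 0; 0, 1]) (al v (l * (u.val : ℤ))) γ := by
    rw [Filter.eventually_all]
    intro u
    have e : al v (l ^ 2 * (u.val : ℤ)) * !![(l : ℤ), 0; 0, 1] =
        !![(l : ℤ), 0; 0, 1] * al v (l * (u.val : ℤ)) := by
      rw [al, al, Matrix.mul_fin_two, Matrix.mul_fin_two]
      exact m2_ext (by ring) (by ring) (by ring) (by ring)
    refine (h.al_congr (w := l ^ 2 * (u.val : ℤ)) ?_ hdl).trans ?_
    · push_cast
      rw [ZMod.natCast_zmod_val, ZMod.natCast_zmod_val]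
    · rw [e]
      exact act_mul X hdl (det_al_ne _)
  have h5 : ∀ᶠ γ in deep, ∀ j : Fin l, act (Y v ψ X) !![1, ((j : ℕ) : ℤ); 0, (l : ℤ)] γ =
      ∑ u : ZMod v, ψ u * act X (al v (u.val : ℤ) * !![1, ((j : ℕ) : ℤ); 0, (l : ℤ)]) γ := by
    rw [Filter.eventually_all]
    exact fun j => act_Y (hdj j)
  have h6 := act_Y (v := v) (ψ := ψ) (X := X) hdl
  filter_upwards [h1, h3, h4, h5, h6] with γ e1 e3 e4 e5 e6
  simp only [e5, e6, e3]
  have hl2 : (l : ZMod v) ^ 2 ≠ 0 := pow_ne_zero 2 hlv'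
  rw [← Equiv.sum_comp (Equiv.mulLeft₀ ((l : ZMod v) ^ 2) hl2) (fun u => ψ u *
    act X (al v (u.val : ℤ) * !![(l : ℤ), 0; 0, 1]) γ)]
  simp only [Equiv.mulLeft₀_apply, e4]
  rw [Finset.sum_comm, ← Finset.sum_add_distrib, Y, Finset.mul_sum,
    ← Equiv.sum_comp (Equiv.mulLeft₀ (l : ZMod v) hlv') (fun u => ψ u * G v X u γ), Finset.mul_sum]
  refine Finset.sum_congr rfl fun u _ => ?_
  rw [Equiv.mulLeft₀_apply, map_mul, map_mul, map_pow, ← Finset.mul_sum]
  linear_combination ψ (l : ZMod v) * ψ u * e1 u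

/-! ### traces -/

section char

variable [IsDomain O]

theorem sum_psi_inv (hψ : ψ ≠ 1) : ∑ u : ZMod v, ψ⁻¹ u = 0 :=
  MulChar.sum_eq_zero_of_ne_one (inv_ne_one.2 hψ)

theorem psi_mul_inv {u : ZMod v} (hu : u ≠ 0) : ψ u * ψ⁻¹ u = 1 := by
  rw [MulChar.inv_apply', ← map_mul, mul_inv_cancel₀ hu, map_one]

/-- the finite sum for the first trace -/
theorem sum_trace (hψ : ψ ≠ 1) {m : ZMod v} (hm : m ≠ 0) (g : ZMod v → O) (w : O) :
    ∑ c : ZMod v, ∑ u : ZMod v, ψ u * (if 1 + u * m * c = 0 then ψ⁻¹ u ^ 2 * w else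
      ψ⁻¹ (1 + u * m * c) ^ 2 * g (u * (1 + u * m * c)⁻¹)) = 0 := by
  classical
  rw [Finset.sum_comm]
  -- for each `u`, reindex by `s`
  have h1 : ∀ u : ZMod v, ∑ c : ZMod v, ψ u * (if 1 + u * m * c = 0 then ψ⁻¹ u ^ 2 * w else
      ψ⁻¹ (1 + u * m * c) ^ 2 * g (u * (1 + u * m * c)⁻¹)) =
      ψ⁻¹ u * w + ∑ s ∈ Finset.univ.erase (0 : ZMod v), ψ u * (ψ⁻¹ s ^ 2 * g (u * s⁻¹)) := by
    intro u
    by_cases hu : u = 0
    · subst hu
      simp [MulChar.map_zero]
    · have hum : u * m ≠ 0 := mul_ne_zero hu hm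
      let e : ZMod v ≃ ZMod v := (Equiv.mulLeft₀ (u * m) hum).trans (Equiv.addLeft 1)
      have he : ∀ c, e c = 1 + u * m * c := fun c => rfl
      simp only [← he]
      rw [Equiv.sum_comp e (fun s => ψ u * (if s = 0 then ψ⁻¹ u ^ 2 * w else
        ψ⁻¹ s ^ 2 * g (u * s⁻¹))), ← Finset.add_sum_erase _ _ (Finset.mem_univ (0 : ZMod v)),
        if_pos rfl]
      congr 1
      · linear_combination (ψ⁻¹ u * w) * psi_mul_inv (ψ := ψ) hu
      · refine Finset.sum_congr rfl fun s hs => ?_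
        rw [if_neg (Finset.ne_of_mem_erase hs)]
  rw [Finset.sum_congr rfl fun u _ => h1 u, Finset.sum_add_distrib, ← Finset.sum_mul,
    sum_psi_inv hψ, zero_mul, zero_add, Finset.sum_comm]
  have h2 : ∀ s ∈ Finset.univ.erase (0 : ZMod v), ∑ u : ZMod v, ψ u * (ψ⁻¹ s ^ 2 * g (u * s⁻¹)) =
      ψ⁻¹ s * ∑ t : ZMod v, ψ t * g t := by
    intro s hs
    have hs0 : s ≠ 0 := Finset.ne_of_mem_erase hs
    rw [← Equiv.sum_comp (Equiv.mulRight₀ s hs0), Finset.mul_sum]
    refine Finset.sum_congr rfl fun t _ => ?_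
    rw [Equiv.mulRight₀_apply, mul_inv_cancel_right₀ hs0, map_mul]
    linear_combination (ψ t * ψ⁻¹ s * g t) * psi_mul_inv (ψ := ψ) hs0
  rw [Finset.sum_congr rfl h2, ← Finset.sum_mul]
  have h3 : ∑ s ∈ Finset.univ.erase (0 : ZMod v), ψ⁻¹ s = 0 := by
    have h4 := sum_psi_inv (v := v) hψ
    rwa [← Finset.add_sum_erase _ _ (Finset.mem_univ (0 : ZMod v)), MulChar.map_zero,
      zero_add] at h4
  rw [h3, zero_mul]

/-- the finite sum for the second trace -/
theorem sum_trace' (hψ : ψ ≠ 1) {m : ZMod v} (hm : m ≠ 0) (g : ZMod v → O) :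
    ∑ c : ZMod v, ∑ u : ZMod v, ψ u * g (u - m * c) = 0 := by
  have h1 : ∀ c : ZMod v, ∑ u : ZMod v, ψ u * g (u - m * c) =
      ∑ t : ZMod v, ψ (t + m * c) * g t := by
    intro c
    rw [← Equiv.sum_comp (Equiv.addRight (m * c))]
    refine Finset.sum_congr rfl fun t _ => ?_
    rw [Equiv.coe_addRight, add_sub_cancel_right]
  rw [Finset.sum_congr rfl fun c _ => h1 c, Finset.sum_comm]
  refine Finset.sum_eq_zero fun t _ => ?_
  rw [← Finset.sum_mul]
  let e : ZMod v ≃ ZMod v := (Equiv.mulLeft₀ m hm).trans (Equiv.addLeft t)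
  have he : ∀ c, e c = t + m * c := fun c => rfl
  simp only [← he]
  rw [Equiv.sum_comp e (fun s => ψ s), sum_psi hψ, zero_mul]

/-- reduction of the translates, unit case -/
theorem Dat.red_unit (h : Dat M v ψ X) {r : ℕ} {U C W k : ℤ}
    (hk : U - W * (1 + U * M * r * C) = v * k) :
    act X (al v U * Rm (M * r) v C) =ᶠ[deep]
      fun γ => ψ ((1 - W * M * r * C : ℤ) : ZMod v) ^ 2 * act X (al v W) γ := by
  refine h.left (a := 1 + U * M * r * C) (b := k) (c := r * C) (d := 1 - W * M * r * C)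
    (k := 1) (k' := 1) ?_ one_ne_zero one_ne_zero (det_al_ne _) ?_
  · push_cast
    linear_combination (M * r * C : ℤ) * hk
  · rw [one_smul, one_smul, al, al, Rm, Matrix.mul_fin_two, Matrix.mul_fin_two]
    refine m2_ext ?_ ?_ ?_ ?_
    · push_cast; ring
    · push_cast; linear_combination hk
    · push_cast; ring
    · push_cast; ring

/-- reduction of the translates, non-unit case -/
theorem Dat.red_zero (h : Dat M v ψ X) {r : ℕ} {U C c₀ k k₀ : ℤ}
    (hk₀ : 1 + M * r * c₀ = v * k₀) (hk : 1 + U * M * r * C = v * k) :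
    act X (al v U * Rm (M * r) v C) =ᶠ[deep]
      fun γ => ψ ((1 + M * r * c₀ - M * r * C : ℤ) : ZMod v) ^ 2 *
        act X (al v 1 * Rm (M * r) v c₀) γ := by
  have hq : (v : ℤ) * (U * k₀ - k) = U * (1 + M * r * c₀) - (1 + U * M * r * C) := by
    rw [hk₀, hk]; ring
  refine h.left (a := 1 + U * M * r * C - U * M * r * c₀) (b := U * k₀ - k)
    (c := r * (C - c₀)) (d := 1 + M * r * c₀ - M * r * C)
    (k := 1) (k' := 1) ?_ one_ne_zero one_ne_zero
    (by rw [Matrix.det_mul]; exact mul_ne_zero (det_al_ne _) (det_Rm_ne _)) ?_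
  · push_cast
    linear_combination -(M * r * (C - c₀) : ℤ) * hq
  · rw [one_smul, one_smul, al, al, Rm, Rm, Matrix.mul_fin_two, Matrix.mul_fin_two,
      Matrix.mul_fin_two]
    refine m2_ext ?_ ?_ ?_ ?_
    · push_cast; linear_combination -(v * M * r * c₀ : ℤ) * hq
    · push_cast; linear_combination -hq
    · push_cast; ring
    · push_cast; ring

/-- reduction of the translates, all cases -/
theorem Dat.red_all (h : Dat M v ψ X) {r : ℕ} {m : ZMod v} (hmr : (M : ZMod v) * r = m) {c₀ k₀ : ℤ}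
    (hk₀ : 1 + M * r * c₀ = v * k₀) (c u : ZMod v) : ∀ᶠ γ in deep,
      act X (al v (u.val : ℤ) * Rm (M * r) v (c.val : ℤ)) γ =
        if 1 + u * m * c = 0 then ψ⁻¹ u ^ 2 * act X (al v 1 * Rm (M * r) v c₀) γ else
          ψ⁻¹ (1 + u * m * c) ^ 2 * G v X (u * (1 + u * m * c)⁻¹) γ := by
  haveI := neZero_v (v := v)
  have hUu : ((u.val : ℤ) : ZMod v) = u := by rw [Int.cast_natCast]; exact ZMod.natCast_zmod_val u
  have hCc : ((c.val : ℤ) : ZMod v) = c := by rw [Int.cast_natCast]; exact ZMod.natCast_zmod_val c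
  generalize (u.val : ℤ) = U at hUu ⊢
  generalize (c.val : ℤ) = C at hCc ⊢
  have hs : ((1 + U * M * r * C : ℤ) : ZMod v) = 1 + u * m * c := by
    rw [← hmr, ← hUu, ← hCc]
    push_cast
    ring
  by_cases h0 : 1 + u * m * c = 0
  · have hs' := hs
    rw [h0, ← Int.cast_zero] at hs'
    obtain ⟨k, hk⟩ := exists_eq_mul hs'
    rw [sub_zero] at hk
    filter_upwards [h.red_zero hk₀ hk] with γ e1
    rw [if_pos h0, e1]
    have e2 : ((1 + M * r * c₀ - M * r * C : ℤ) : ZMod v) * u = 1 := by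
      have e3 : ((1 + M * r * c₀ : ℤ) : ZMod v) = 0 := by
        rw [hk₀, Int.cast_mul, Int.cast_natCast, ZMod.natCast_self, zero_mul]
      have e4 : ((1 + M * r * c₀ - M * r * C : ℤ) : ZMod v) =
        ((1 + M * r * c₀ : ℤ) : ZMod v) - m * c := by
        rw [← hmr, ← hCc]; push_cast; ring
      rw [e4, e3]
      linear_combination -h0
    have e5 : ψ ((1 + M * r * c₀ - M * r * C : ℤ) : ZMod v) = ψ⁻¹ u := by
      rw [MulChar.inv_apply']
      congr 1
      exact eq_inv_of_mul_eq_one_left e2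
    rw [e5]
  · generalize hw : u * (1 + u * m * c)⁻¹ = w
    have hWw : ((w.val : ℤ) : ZMod v) = w := by
      rw [Int.cast_natCast]; exact ZMod.natCast_zmod_val w
    have e0 : ((U : ℤ) : ZMod v) = (((w.val : ℤ) * (1 + U * M * r * C) : ℤ) : ZMod v) := by
      rw [Int.cast_mul, hs, hWw, hUu, ← hw, inv_mul_cancel_right₀ h0]
    obtain ⟨k, hk⟩ := exists_eq_mul e0
    filter_upwards [h.red_unit hk] with γ e1
    rw [if_neg h0, e1]
    have e2 : ((1 - (w.val : ℤ) * M * r * C : ℤ) : ZMod v) * (1 + u * m * c) = 1 := by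
      have e4 : ((1 - (w.val : ℤ) * M * r * C : ℤ) : ZMod v) = 1 - w * m * c := by
        rw [Int.cast_sub, Int.cast_one, Int.cast_mul, Int.cast_mul, Int.cast_mul, hWw, hCc,
          Int.cast_natCast, Int.cast_natCast, mul_assoc w, hmr]
      rw [e4, ← hw]
      linear_combination -(u * m * c) * inv_mul_cancel₀ h0
    have e5 : ψ ((1 - (w.val : ℤ) * M * r * C : ℤ) : ZMod v) = ψ⁻¹ (1 + u * m * c) := by
      rw [MulChar.inv_apply']
      congr 1
      exact eq_inv_of_mul_eq_one_left e2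
    rw [e5]
    rfl

/-- **the first trace of the twist vanishes** -/
theorem Dat.Y_trace (h : Dat M v ψ X) (hψ : ψ ≠ 1) {r : ℕ} (hM : ¬ v ∣ M * r) :
    ∀ᶠ γ in deep, ∑ c : ZMod v, act (Y v ψ X) (Rm (M * r) v (c.val : ℤ)) γ = 0 := by
  haveI := neZero_v (v := v)
  have hm : ((M * r : ℕ) : ZMod v) ≠ 0 := fun h0 => hM ((ZMod.natCast_eq_zero_iff _ v).1 h0)
  have hmr : (M : ZMod v) * r = ((M * r : ℕ) : ZMod v) := by push_cast; ring
  generalize ((M * r : ℕ) : ZMod v) = m at hm hmr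
  -- the reference point
  obtain ⟨c₀, hc₀⟩ : ∃ c₀ : ℤ, ((1 + M * r * c₀ : ℤ) : ZMod v) = ((0 : ℤ) : ZMod v) := by
    refine ⟨((-m⁻¹ : ZMod v).val : ℤ), ?_⟩
    push_cast
    rw [ZMod.natCast_zmod_val, hmr, mul_neg, mul_inv_cancel₀ hm]
    ring
  obtain ⟨k₀, hk₀⟩ := exists_eq_mul hc₀
  rw [sub_zero] at hk₀
  have h1' : ∀ᶠ γ in deep, ∀ c u : ZMod v,
      act X (al v (u.val : ℤ) * Rm (M * r) v (c.val : ℤ)) γ =
        if 1 + u * m * c = 0 then ψ⁻¹ u ^ 2 * act X (al v 1 * Rm (M * r) v c₀) γ else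
          ψ⁻¹ (1 + u * m * c) ^ 2 * G v X (u * (1 + u * m * c)⁻¹) γ := by
    rw [Filter.eventually_all]
    intro c
    rw [Filter.eventually_all]
    exact h.red_all hmr hk₀ c
  have h2 : ∀ᶠ γ in deep, ∀ c : ZMod v, act (Y v ψ X) (Rm (M * r) v (c.val : ℤ)) γ =
      ∑ u : ZMod v, ψ u * act X (al v (u.val : ℤ) * Rm (M * r) v (c.val : ℤ)) γ := by
    rw [Filter.eventually_all]
    exact fun c => act_Y (det_Rm_ne _)
  filter_upwards [h1', h2] with γ e1 e2
  rw [← sum_trace hψ hm (fun s => G v X s γ) (act X (al v 1 * Rm (M * r) v c₀) γ)]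
  refine Finset.sum_congr rfl fun c _ => ?_
  rw [e2 c]
  refine Finset.sum_congr rfl fun u _ => ?_
  rw [e1 c u]

/-- the Atkin–Lehner matrices -/
def Wm (M v r : ℕ) (a b c d : ℤ) : M2 :=
  !![(v : ℤ) ^ 2 * a, b; M * r * v ^ 2 * c, (v : ℤ) ^ 2 * d]

theorem det_Wm_ne {r : ℕ} {a b c d : ℤ} (hdet : (v : ℤ) ^ 2 * a * d - b * (M * r * c) = 1) :
    (Wm M v r a b c d).det ≠ 0 := by
  rw [Wm, Matrix.det_fin_two_of]
  have : (v : ℤ) ^ 2 * a * (v ^ 2 * d) - b * (M * r * v ^ 2 * c) = v ^ 2 := by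
    linear_combination (v : ℤ) ^ 2 * hdet
  rw [this]
  exact pow_ne_zero 2 (by exact_mod_cast hv.out.ne_zero)

/-- reduction for the second trace -/
theorem Dat.red_W (h : Dat M v ψ X) {r : ℕ} {a b c d : ℤ}
    (hdet : (v : ℤ) ^ 2 * a * d - b * (M * r * c) = 1) (U C : ℤ) :
    act X (al v U * (Wm M v r a b c d * Rm (M * r) v C)) =ᶠ[deep]
      act X (al v (U - M * r * b ^ 2 * C) * Wm M v r a b c d) := by
  refine h.left_one
    (a := 1 + M * r * v * C * b * d + U * (M * r * v ^ 2 * C * d ^ 2))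
    (b := -(M * r * C * b * d) * (U + (U - M * r * b ^ 2 * C)) -
      U * (U - M * r * b ^ 2 * C) * (M * r * C * v * d ^ 2))
    (c := r * C * v ^ 2 * d ^ 2)
    (d := 1 - M * r * v * C * b * d - (U - M * r * b ^ 2 * C) * (M * r * v ^ 2 * C * d ^ 2))
    (k := 1) (k' := 1) ?_ ?_ one_ne_zero one_ne_zero
    (by rw [Matrix.det_mul]; exact mul_ne_zero (det_al_ne _) (det_Wm_ne hdet)) ?_
  · push_cast
    ring
  · push_cast
    rw [ZMod.natCast_self]
    ring
  · rw [one_smul, one_smul, al, al, Rm, Wm, Matrix.mul_fin_two, Matrix.mul_fin_two,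
      Matrix.mul_fin_two, Matrix.mul_fin_two]
    refine m2_ext ?_ ?_ ?_ ?_
    · push_cast
      linear_combination -(M * r * C * b * v ^ 2 + U * M * r * C * v ^ 3 * d : ℤ) * hdet
    · push_cast; ring
    · push_cast
      linear_combination -(M * r * C * v ^ 4 * d : ℤ) * hdet
    · push_cast; ring

/-- **the second trace of the twist vanishes** -/
theorem Dat.Y_traceW (h : Dat M v ψ X) (hψ : ψ ≠ 1) {r : ℕ} (hM : ¬ v ∣ M * r) {a b c d : ℤ}
    (hdet : (v : ℤ) ^ 2 * a * d - b * (M * r * c) = 1) :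
    ∀ᶠ γ in deep, ∑ c' : ZMod v, act (act (Y v ψ X) (Wm M v r a b c d))
      (Rm (M * r) v (c'.val : ℤ)) γ = 0 := by
  haveI := neZero_v (v := v)
  have hm : ((M * r : ℕ) : ZMod v) ≠ 0 := fun h0 => hM ((ZMod.natCast_eq_zero_iff _ v).1 h0)
  have hmr : (M : ZMod v) * r = ((M * r : ℕ) : ZMod v) := by push_cast; ring
  generalize ((M * r : ℕ) : ZMod v) = m at hm hmr
  have hB := det_Wm_ne hdet
  have hb : (b : ZMod v) ≠ 0 := by
    intro h0
    have e1 := congrArg (Int.cast : ℤ → ZMod v) hdet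
    push_cast at e1
    rw [h0, ZMod.natCast_self] at e1
    have : (0 : ZMod v) = 1 := by linear_combination e1
    exact zero_ne_one this
  have h1 : ∀ᶠ γ in deep, ∀ c' u : ZMod v,
      act X (al v (u.val : ℤ) * (Wm M v r a b c d * Rm (M * r) v (c'.val : ℤ))) γ =
        act X (al v ((u - m * (b : ZMod v) ^ 2 * c').val : ℤ) * Wm M v r a b c d) γ := by
    rw [Filter.eventually_all]
    intro c'
    rw [Filter.eventually_all]
    intro u
    refine (h.red_W hdet _ _).trans (h.al_congr ?_ hB)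
    rw [Int.cast_natCast, ZMod.natCast_zmod_val]
    push_cast
    rw [ZMod.natCast_zmod_val, ZMod.natCast_zmod_val, hmr]
  have h2 : ∀ᶠ γ in deep, ∀ c' : ZMod v, act (act (Y v ψ X) (Wm M v r a b c d))
      (Rm (M * r) v (c'.val : ℤ)) γ =
      ∑ u : ZMod v, ψ u * act X (al v (u.val : ℤ) *
        (Wm M v r a b c d * Rm (M * r) v (c'.val : ℤ))) γ := by
    rw [Filter.eventually_all]
    intro c'
    exact (act_mul _ hB (det_Rm_ne _)).symm.trans
      (act_Y (by rw [Matrix.det_mul]; exact mul_ne_zero hB (det_Rm_ne _)))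
  filter_upwards [h1, h2] with γ e1 e2
  rw [← sum_trace' hψ (mul_ne_zero hm (pow_ne_zero 2 hb))
    (fun w => act X (al v (w.val : ℤ) * Wm M v r a b c d) γ)]
  refine Finset.sum_congr rfl fun c' _ => ?_
  rw [e2 c']
  refine Finset.sum_congr rfl fun u _ => ?_
  rw [e1 c' u]

end char

end

end Fermat.Agent.Twi
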